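import Mathlib
import Fermat.Prelude.Def_ModularCurve_LaurentCoeff

/-!
# Canonical representatives of Kummer classes (abstract core of the descent route K6)

`M ⊆ Ω((q))` a subfield containing the constants, `m ≥ 1`, and a family of predicates
`Good n` ("regular at finite distance, pole order at most `n` at the cusps").  For `u ∈ Mˣ`
the class `u · (Mˣ)^m` contains, up to a constant, exactly one *canonical* element: take the
least level `n` at which the class meets `Good n`, and among the good elements of that level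
one of maximal `q`-order, normalised to leading coefficient `1`.

The construction commutes with every coefficientwise automorphism preserving `M` and `Good`.
Hence: if the conjugates of `u` lie in finitely many classes, the canonical element has finite
orbit (`exists_canonical_finite_orbit`).
-/

set_option autoImplicit false

noncomputable section

namespace Fermat.Agent.S29.H21

open HahnSeries ModularCurve

variable {Ω : Type*} [Field Ω]

/-! ### Coefficient maps, orders and leading coefficients -/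

theorem coeffMap_eq_zero_iff (σ : Ω →+* Ω) (x : LaurentSeries Ω) :
    coeffMap σ x = 0 ↔ x = 0 := by
  constructor
  · intro h
    ext k
    have h1 : (coeffMap σ x).coeff k = 0 := by rw [h]; rfl
    rw [coeffMap_coeff] at h1
    simpa using h1
  · rintro rfl
    exact map_zero _

theorem order_coeffMap (σ : Ω →+* Ω) (x : LaurentSeries Ω) :
    (coeffMap σ x).order = x.order := by
  by_cases hx : x = 0
  · subst hx
    rw [map_zero]
  have hx' : coeffMap σ x ≠ 0 := fun h => hx ((coeffMap_eq_zero_iff σ x).1 h)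
  apply le_antisymm
  · apply order_le_of_coeff_ne_zero
    rw [coeffMap_coeff]
    intro h
    exact coeff_order_eq_zero.not.2 hx ((map_eq_zero σ).1 h)
  · apply order_le_of_coeff_ne_zero
    intro h
    apply coeff_order_eq_zero.not.2 hx'
    rw [coeffMap_coeff, h, map_zero]

theorem leadingCoeff_coeffMap (σ : Ω →+* Ω) (x : LaurentSeries Ω) :
    (coeffMap σ x).leadingCoeff = σ x.leadingCoeff := by
  rw [leadingCoeff_eq, leadingCoeff_eq, order_coeffMap, coeffMap_coeff]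

/-- the constant Laurent series `c` -/
abbrev cst (c : Ω) : LaurentSeries Ω := HahnSeries.single (0 : ℤ) c

theorem cst_eq_algebraMap (c : Ω) : cst c = algebraMap Ω (LaurentSeries Ω) c :=
  (algebraMap_laurentSeries_eq_single Ω c).symm

theorem cst_mul_coeff (c : Ω) (x : LaurentSeries Ω) (k : ℤ) :
    (cst c * x).coeff k = c * x.coeff k := by
  have h := HahnSeries.coeff_single_mul_add (r := c) (x := x) (a := k) (b := (0 : ℤ))
  rwa [add_zero] at h

theorem cst_mul (c d : Ω) : cst (c * d) = cst c * cst d := by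
  rw [cst, cst, cst, HahnSeries.single_mul_single, add_zero]

theorem cst_one : cst (1 : Ω) = 1 := rfl

theorem cst_pow (c : Ω) (n : ℕ) : cst (c ^ n) = cst c ^ n := by
  induction n with
  | zero => rw [pow_zero, pow_zero]; rfl
  | succ n ih => rw [pow_succ, pow_succ, cst_mul, ih]

theorem cst_ne_zero {c : Ω} (hc : c ≠ 0) : cst c ≠ 0 := by
  intro h
  have h1 : (cst c).coeff 0 = 0 := by rw [h]; rfl
  rw [HahnSeries.coeff_single_same] at h1
  exact hc h1

theorem coeffMap_cst (σ : Ω →+* Ω) (c : Ω) : coeffMap σ (cst c) = cst (σ c) :=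
  coeffMap_single σ 0 c

theorem leadingCoeff_cst_mul (c : Ω) (x : LaurentSeries Ω) :
    (cst c * x).leadingCoeff = c * x.leadingCoeff := by
  rw [leadingCoeff_mul, leadingCoeff_of_single]

/-- normalisation to leading coefficient `1` -/
def nrm (x : LaurentSeries Ω) : LaurentSeries Ω := cst (x.leadingCoeff)⁻¹ * x

theorem nrm_cst_mul {c : Ω} (hc : c ≠ 0) (x : LaurentSeries Ω) : nrm (cst c * x) = nrm x := by
  unfold nrm
  rw [leadingCoeff_cst_mul, ← mul_assoc, ← cst_mul]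
  by_cases hx : x = 0
  · subst hx; simp
  congr 2
  have : x.leadingCoeff ≠ 0 := leadingCoeff_ne_zero.2 hx
  field_simp

theorem nrm_coeffMap (σ : Ω →+* Ω) (x : LaurentSeries Ω) :
    nrm (coeffMap σ x) = coeffMap σ (nrm x) := by
  unfold nrm
  rw [leadingCoeff_coeffMap, map_mul, coeffMap_cst, map_inv₀]

theorem order_lt_order_sub {x y : LaurentSeries Ω} (hxy : x.order = y.order)
    (hy : y ≠ 0)
    (hz : x - cst (x.leadingCoeff / y.leadingCoeff) * y ≠ 0) :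
    x.order < (x - cst (x.leadingCoeff / y.leadingCoeff) * y).order := by
  by_contra hle
  rw [not_lt] at hle
  have hne := coeff_order_eq_zero.not.2 hz
  apply hne
  have hc : ∀ k, (x - cst (x.leadingCoeff / y.leadingCoeff) * y).coeff k =
      x.coeff k - (x.leadingCoeff / y.leadingCoeff) * y.coeff k := by
    intro k
    rw [HahnSeries.coeff_sub, cst_mul_coeff]
  rw [hc]
  rcases lt_or_eq_of_le hle with hlt | heq
  · rw [coeff_eq_zero_of_lt_order hlt, coeff_eq_zero_of_lt_order (hxy ▸ hlt)]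
    simp
  · rw [heq]
    have h1 : x.coeff x.order = x.leadingCoeff := leadingCoeff_eq.symm
    have h2 : y.coeff x.order = y.leadingCoeff := by rw [hxy]; exact leadingCoeff_eq.symm
    rw [h1, h2]
    have : y.leadingCoeff ≠ 0 := leadingCoeff_ne_zero.2 hy
    field_simp
    simp

variable {G : Type*} [Group G]

theorem coeffMap_inv_apply (ρ : G →* (Ω ≃+* Ω)) (g : G) (x : LaurentSeries Ω) :
    coeffMap (ρ g⁻¹ : Ω →+* Ω) (coeffMap (ρ g : Ω →+* Ω) x) = x := by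
  ext k
  simp only [coeffMap_coeff, RingHom.coe_coe]
  rw [map_inv]
  exact (ρ g).symm_apply_apply _

theorem coeffMap_apply_inv (ρ : G →* (Ω ≃+* Ω)) (g : G) (x : LaurentSeries Ω) :
    coeffMap (ρ g : Ω →+* Ω) (coeffMap (ρ g⁻¹ : Ω →+* Ω) x) = x := by
  have := coeffMap_inv_apply ρ g⁻¹ x
  rwa [inv_inv] at this

/-! ### Classes and canonical elements -/

section Canon

variable (M : IntermediateField Ω (LaurentSeries Ω)) (m : ℕ)
  (Good : ℕ → LaurentSeries Ω → Prop) (ρ : G →* (Ω ≃+* Ω))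

/-- the class of `u` modulo `m`-th powers of `Mˣ` -/
def cls (u : LaurentSeries Ω) : Set (LaurentSeries Ω) :=
  {x | ∃ h ∈ M, h ≠ 0 ∧ x = u * h ^ m}

/-- `v` is a canonical element of the set `X`: the normalisation of an element of maximal
order among the good elements of the least level at which `X` has good elements. -/
def IsCan (X : Set (LaurentSeries Ω)) (v : LaurentSeries Ω) : Prop :=
  ∃ n, (∀ n' < n, ∀ x ∈ X, ¬ Good n' x) ∧
    ∃ x ∈ X, Good n x ∧ (∀ y ∈ X, Good n y → y.order ≤ x.order) ∧ v = nrm x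

variable {M m Good}

theorem cls_twist (t : LaurentSeries Ω) {w : LaurentSeries Ω} (hw : w ∈ M) (hw0 : w ≠ 0) :
    cls M m (t * w ^ m) = cls M m t := by
  ext x
  constructor
  · rintro ⟨h, hh, hh0, rfl⟩
    exact ⟨w * h, mul_mem hw hh, mul_ne_zero hw0 hh0, by rw [mul_pow, mul_assoc]⟩
  · rintro ⟨h, hh, hh0, rfl⟩
    refine ⟨h / w, div_mem hh hw, div_ne_zero hh0 hw0, ?_⟩
    rw [div_pow, mul_assoc, mul_div_cancel₀ _ (pow_ne_zero m hw0)]

theorem cls_coeffMap (hM : ∀ g, ∀ x ∈ M, coeffMap (ρ g : Ω →+* Ω) x ∈ M) (g : G)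
    (u : LaurentSeries Ω) :
    (coeffMap (ρ g : Ω →+* Ω)) '' cls M m u = cls M m (coeffMap (ρ g : Ω →+* Ω) u) := by
  ext x
  constructor
  · rintro ⟨_, ⟨h, hh, hh0, rfl⟩, rfl⟩
    refine ⟨coeffMap (ρ g : Ω →+* Ω) h, hM g h hh, ?_, ?_⟩
    · exact fun h0 => hh0 ((coeffMap_eq_zero_iff _ _).1 h0)
    · rw [map_mul, map_pow]
  · rintro ⟨h, hh, hh0, rfl⟩
    refine ⟨u * (coeffMap (ρ g⁻¹ : Ω →+* Ω) h) ^ m,
      ⟨coeffMap (ρ g⁻¹ : Ω →+* Ω) h, hM g⁻¹ h hh, ?_, rfl⟩, ?_⟩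
    · exact fun h0 => hh0 ((coeffMap_eq_zero_iff _ _).1 h0)
    · rw [map_mul, map_pow, coeffMap_apply_inv]

theorem isCan_coeffMap
    (heq : ∀ g n x, Good n x → Good n (coeffMap (ρ g : Ω →+* Ω) x)) (g : G)
    {X : Set (LaurentSeries Ω)} {v : LaurentSeries Ω} (hv : IsCan Good X v) :
    IsCan Good ((coeffMap (ρ g : Ω →+* Ω)) '' X) (coeffMap (ρ g : Ω →+* Ω) v) := by
  obtain ⟨n, hmin, x, hx, hgx, hmax, rfl⟩ := hv
  have hback : ∀ n' (y : LaurentSeries Ω), Good n' (coeffMap (ρ g : Ω →+* Ω) y) → Good n' y := by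
    intro n' y hy
    have := heq g⁻¹ n' _ hy
    rwa [coeffMap_inv_apply] at this
  refine ⟨n, ?_, coeffMap (ρ g : Ω →+* Ω) x, ⟨x, hx, rfl⟩, heq g n x hgx, ?_, ?_⟩
  · rintro n' hn' _ ⟨y, hy, rfl⟩ hgy
    exact hmin n' hn' y hy (hback _ _ hgy)
  · rintro _ ⟨y, hy, rfl⟩ hgy
    rw [order_coeffMap, order_coeffMap]
    exact hmax y hy (hback _ _ hgy)
  · exact (nrm_coeffMap _ _).symm

theorem exists_isCan
    (hex : ∀ u ∈ M, u ≠ 0 → ∃ n, ∃ h ∈ M, h ≠ 0 ∧ Good n (u * h ^ m))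
    (hbd : ∀ n, ∃ C : ℤ, ∀ x ∈ M, x ≠ 0 → Good n x → x.order ≤ C)
    {u : LaurentSeries Ω} (hu : u ∈ M) (hu0 : u ≠ 0) :
    ∃ v, IsCan Good (cls M m u) v ∧
      ∃ h ∈ M, h ≠ 0 ∧ ∃ c : Ω, c ≠ 0 ∧ v = cst c * (u * h ^ m) := by
  classical
  have hne : ∃ n, ∃ x ∈ cls M m u, Good n x := by
    obtain ⟨n, h, hh, hh0, hg⟩ := hex u hu hu0
    exact ⟨n, _, ⟨h, hh, hh0, rfl⟩, hg⟩
  have hn := Nat.find_spec hne
  obtain ⟨C, hC⟩ := hbd (Nat.find hne)
  have hbdd : ∃ b : ℤ, ∀ a : ℤ,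
      (∃ x ∈ cls M m u, Good (Nat.find hne) x ∧ x.order = a) → a ≤ b := by
    refine ⟨C, ?_⟩
    rintro a ⟨x, ⟨h, hh, hh0, rfl⟩, hgx, rfl⟩
    exact hC _ (mul_mem hu (pow_mem hh m)) (mul_ne_zero hu0 (pow_ne_zero m hh0)) hgx
  have hinh : ∃ a : ℤ, ∃ x ∈ cls M m u, Good (Nat.find hne) x ∧ x.order = a := by
    obtain ⟨x, hx, hgx⟩ := hn
    exact ⟨_, x, hx, hgx, rfl⟩
  obtain ⟨a, ⟨x, hx, hgx, rfl⟩, hmax⟩ := Int.exists_greatest_of_bdd hbdd hinh
  refine ⟨nrm x, ⟨Nat.find hne, ?_, x, hx, hgx, ?_, rfl⟩, ?_⟩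
  · intro n' hn' y hy hgy
    exact Nat.find_min hne hn' ⟨y, hy, hgy⟩
  · intro y hy hgy
    exact hmax _ ⟨y, hy, hgy, rfl⟩
  · obtain ⟨h, hh, hh0, rfl⟩ := hx
    refine ⟨h, hh, hh0, _, ?_, rfl⟩
    exact inv_ne_zero (leadingCoeff_ne_zero.2 (mul_ne_zero hu0 (pow_ne_zero m hh0)))

theorem isCan_unique (hm : 0 < m)
    (hsub : ∀ n (u h₁ h₂ : LaurentSeries Ω) (c : Ω), Good n (u * h₁ ^ m) →
      Good n (u * h₂ ^ m) → Good n (u * (h₁ - cst c * h₂) ^ m))
    {u : LaurentSeries Ω} (hu0 : u ≠ 0) {v₁ v₂ : LaurentSeries Ω}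
    (h₁ : IsCan Good (cls M m u) v₁) (h₂ : IsCan Good (cls M m u) v₂) : v₁ = v₂ := by
  obtain ⟨n₁, hmin₁, x₁, hx₁, hg₁, hmax₁, rfl⟩ := h₁
  obtain ⟨n₂, hmin₂, x₂, hx₂, hg₂, hmax₂, rfl⟩ := h₂
  have hn : n₁ = n₂ := by
    rcases lt_trichotomy n₁ n₂ with h | h | h
    · exact absurd hg₁ (hmin₂ n₁ h x₁ hx₁)
    · exact h
    · exact absurd hg₂ (hmin₁ n₂ h x₂ hx₂)
  subst hn
  have hord : x₁.order = x₂.order := le_antisymm (hmax₂ x₁ hx₁ hg₁) (hmax₁ x₂ hx₂ hg₂)
  obtain ⟨k₁, hk₁M, hk₁0, rfl⟩ := hx₁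
  obtain ⟨k₂, hk₂M, hk₂0, rfl⟩ := hx₂
  have ho : ∀ k : LaurentSeries Ω, k ≠ 0 → (u * k ^ m).order = u.order + (m : ℤ) * k.order := by
    intro k hk
    rw [order_mul hu0 (pow_ne_zero m hk), order_pow, nsmul_eq_mul]
  have hk : k₁.order = k₂.order := by
    rw [ho k₁ hk₁0, ho k₂ hk₂0] at hord
    have hm' : (m : ℤ) ≠ 0 := by exact_mod_cast hm.ne'
    exact mul_left_cancel₀ hm' (add_left_cancel hord)
  set c := k₁.leadingCoeff / k₂.leadingCoeff with hc
  have hc0 : c ≠ 0 :=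
    div_ne_zero (leadingCoeff_ne_zero.2 hk₁0) (leadingCoeff_ne_zero.2 hk₂0)
  by_cases h3 : k₁ - cst c * k₂ = 0
  · have hk₁ : k₁ = cst c * k₂ := sub_eq_zero.1 h3
    have : u * k₁ ^ m = cst (c ^ m) * (u * k₂ ^ m) := by
      rw [hk₁, mul_pow, cst_pow]
      ring
    rw [this, nrm_cst_mul (pow_ne_zero m hc0)]
  · exfalso
    have hg₃ := hsub n₁ u k₁ k₂ c hg₁ hg₂
    have hcM : cst c ∈ M := by
      rw [cst_eq_algebraMap]
      exact M.algebraMap_mem c
    have hx₃ : u * (k₁ - cst c * k₂) ^ m ∈ cls M m u :=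
      ⟨_, sub_mem hk₁M (mul_mem hcM hk₂M), h3, rfl⟩
    have hle := hmax₁ _ hx₃ hg₃
    rw [ho _ h3, ho _ hk₁0] at hle
    have hm' : (0 : ℤ) < m := by exact_mod_cast hm
    have hle' : (k₁ - cst c * k₂).order ≤ k₁.order :=
      le_of_mul_le_mul_left (by linarith) hm'
    exact absurd (order_lt_order_sub hk hk₂0 h3) (not_lt.2 hle')

/-- **Canonical representative with finite orbit.**  If the conjugates of `u ∈ Mˣ` under the
coefficientwise action of `G` lie in finitely many classes modulo `m`-th powers, then some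
`cst c * (u * h ^ m)` (`h ∈ Mˣ`, `c ≠ 0`) has finite orbit. -/
theorem exists_canonical_finite_orbit (hm : 0 < m)
    (hM : ∀ g, ∀ x ∈ M, coeffMap (ρ g : Ω →+* Ω) x ∈ M)
    (hsub : ∀ n (u h₁ h₂ : LaurentSeries Ω) (c : Ω), Good n (u * h₁ ^ m) →
      Good n (u * h₂ ^ m) → Good n (u * (h₁ - cst c * h₂) ^ m))
    (hex : ∀ u ∈ M, u ≠ 0 → ∃ n, ∃ h ∈ M, h ≠ 0 ∧ Good n (u * h ^ m))
    (hbd : ∀ n, ∃ C : ℤ, ∀ x ∈ M, x ≠ 0 → Good n x → x.order ≤ C)
    (heq : ∀ g n x, Good n x → Good n (coeffMap (ρ g : Ω →+* Ω) x))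
    {u : LaurentSeries Ω} (hu : u ∈ M) (hu0 : u ≠ 0)
    (hT : ∃ T : Set (LaurentSeries Ω), T.Finite ∧
      ∀ g, ∃ t ∈ T, ∃ w ∈ M, w ≠ 0 ∧ coeffMap (ρ g : Ω →+* Ω) u = t * w ^ m) :
    ∃ h ∈ M, h ≠ 0 ∧ ∃ c : Ω, c ≠ 0 ∧
      (Set.range fun g : G => coeffMap (ρ g : Ω →+* Ω) (cst c * (u * h ^ m))).Finite := by
  classical
  obtain ⟨v, hv, h, hh, hh0, c, hc, rfl⟩ := exists_isCan hex hbd hu hu0
  obtain ⟨T, hTfin, hT⟩ := hT
  let pick : LaurentSeries Ω → LaurentSeries Ω := fun t =>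
    if h : ∃ v', IsCan Good (cls M m t) v' then h.choose else 0
  refine ⟨h, hh, hh0, c, hc, (hTfin.image pick).subset ?_⟩
  rintro _ ⟨g, rfl⟩
  obtain ⟨t, ht, w, hw, hw0, htw⟩ := hT g
  refine ⟨t, ht, ?_⟩
  have h1 := isCan_coeffMap ρ heq g hv
  rw [cls_coeffMap ρ hM, htw, cls_twist t hw hw0] at h1
  have hex' : ∃ v', IsCan Good (cls M m t) v' := ⟨_, h1⟩
  have ht0 : t ≠ 0 := by
    rintro rfl
    rw [zero_mul] at htw
    exact hu0 ((coeffMap_eq_zero_iff _ _).1 htw)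
  change pick t = _
  simp only [pick, dif_pos hex']
  exact isCan_unique hm hsub ht0 hex'.choose_spec h1

end Canon

end Fermat.Agent.S29.H21
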