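import Mathlib
import Fermat.Agent.S29.H21.CanonRep

/-!
# The algebraic `Good` predicate for the canonical representative (descent route K6)

`jj ∈ Ω((q))` with a pole (`jj.order < 0`).  `GoodAlg jj n g` says: `g` is integral over
`Ω[jj]` and `jj⁻ⁿ g` is integral over the valuation ring `Ω(jj) ∩ {ord ≥ 0}` of `Ω(jj)`.
For a subfield `M ∋ jj` of bounded degree over `Ω(jj)` this family satisfies the hypotheses of
`exists_canonical_finite_orbit` (`CanonRep.lean`).
-/

set_option autoImplicit false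

noncomputable section

namespace Fermat.Agent.S29.H21

open HahnSeries ModularCurve Polynomial
open scoped IntermediateField.algebraAdjoinAdjoin

variable {Ω : Type*} [Field Ω]

/-! ### Orders -/

theorem orderTop_cst_nonneg (c : Ω) : 0 ≤ (cst c).orderTop := orderTop_single_le

theorem order_cst {c : Ω} (hc : c ≠ 0) : (cst c).order = 0 := order_single hc

theorem orderTop_coeffMap (σ : Ω →+* Ω) (x : LaurentSeries Ω) :
    (coeffMap σ x).orderTop = x.orderTop := by
  by_cases hx : x = 0
  · subst hx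
    rw [map_zero]
  have hx' : coeffMap σ x ≠ 0 := fun h => hx ((coeffMap_eq_zero_iff σ x).1 h)
  rw [← order_eq_orderTop_of_ne_zero hx, ← order_eq_orderTop_of_ne_zero hx', order_coeffMap]

theorem order_inv' {x : LaurentSeries Ω} (hx : x ≠ 0) : (x⁻¹).order = -x.order := by
  have h1 : (x * x⁻¹).order = x.order + (x⁻¹).order := order_mul hx (inv_ne_zero hx)
  rw [mul_inv_cancel₀ hx, order_one] at h1
  linarith

/-- order of a polynomial expression in an element with a pole -/
theorem aeval_ne_zero_and_order {jj : LaurentSeries Ω} (hj : jj.order < 0) {P : Polynomial Ω}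
    (hP : P ≠ 0) :
    aeval jj P ≠ 0 ∧ (aeval jj P).order = P.natDegree * jj.order := by
  have hj0 : jj ≠ 0 := by
    rintro rfl
    simp at hj
  have hterm : ∀ i : ℕ, P.coeff i ≠ 0 →
      algebraMap Ω (LaurentSeries Ω) (P.coeff i) * jj ^ i ≠ 0 ∧
        (algebraMap Ω (LaurentSeries Ω) (P.coeff i) * jj ^ i).order = i * jj.order := by
    intro i hi
    rw [← cst_eq_algebraMap]
    refine ⟨mul_ne_zero (cst_ne_zero hi) (pow_ne_zero i hj0), ?_⟩
    rw [order_mul (cst_ne_zero hi) (pow_ne_zero i hj0), order_cst hi, order_pow, zero_add,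
      nsmul_eq_mul]
  have hlc : P.coeff P.natDegree ≠ 0 := by
    rw [coeff_natDegree]
    exact leadingCoeff_ne_zero.2 hP
  obtain ⟨htop0, htop⟩ := hterm P.natDegree hlc
  rw [aeval_def, eval₂_eq_sum_range, Finset.sum_range_succ]
  set v := addVal ℤ Ω with hv
  have hlow : v (algebraMap Ω (LaurentSeries Ω) (P.coeff P.natDegree) * jj ^ P.natDegree) <
      v (∑ i ∈ Finset.range P.natDegree,
        algebraMap Ω (LaurentSeries Ω) (P.coeff i) * jj ^ i) := by
    apply AddValuation.map_lt_sum
    · rw [hv, addVal_apply]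
      exact orderTop_ne_top.2 htop0
    · intro i hi
      rw [Finset.mem_range] at hi
      by_cases hci : P.coeff i = 0
      · rw [hci, map_zero, zero_mul, AddValuation.map_zero, hv, addVal_apply]
        exact lt_top_iff_ne_top.2 (orderTop_ne_top.2 htop0)
      · obtain ⟨h0, ho⟩ := hterm i hci
        rw [hv, addVal_apply, addVal_apply, ← order_eq_orderTop_of_ne_zero htop0,
          ← order_eq_orderTop_of_ne_zero h0, htop, ho]
        have : (P.natDegree : ℤ) * jj.order < (i : ℤ) * jj.order := by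
          have hi' : (i : ℤ) < P.natDegree := by exact_mod_cast hi
          nlinarith
        exact_mod_cast this
  have hsum := AddValuation.map_add_eq_of_lt_right v hlow
  rw [hv, addVal_apply, addVal_apply] at hsum
  have hne : (∑ i ∈ Finset.range P.natDegree,
      algebraMap Ω (LaurentSeries Ω) (P.coeff i) * jj ^ i +
      algebraMap Ω (LaurentSeries Ω) (P.coeff P.natDegree) * jj ^ P.natDegree) ≠ 0 := by
    intro h0
    rw [h0, orderTop_zero] at hsum
    exact htop0 (orderTop_eq_top.1 hsum.symm)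
  refine ⟨hne, ?_⟩
  rw [← order_eq_orderTop_of_ne_zero hne, ← order_eq_orderTop_of_ne_zero htop0] at hsum
  have := WithTop.coe_injective hsum
  rw [this, htop]

theorem transcendental_of_order_neg {jj : LaurentSeries Ω} (hj : jj.order < 0) :
    Transcendental Ω jj := by
  rw [transcendental_iff]
  intro P hP
  by_contra h
  exact (aeval_ne_zero_and_order hj h).1 hP

theorem order_nonpos_of_mem_adjoin {jj : LaurentSeries Ω} (hj : jj.order < 0)
    {r : LaurentSeries Ω} (hr : r ∈ Algebra.adjoin Ω {jj}) (hr0 : r ≠ 0) : r.order ≤ 0 := by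
  rw [Algebra.adjoin_singleton_eq_range_aeval] at hr
  obtain ⟨P, rfl⟩ := hr
  have hP : P ≠ 0 := by
    rintro rfl
    simp at hr0
  have h := (aeval_ne_zero_and_order hj hP).2
  change (aeval jj P).order ≤ 0
  rw [h]
  have : (0 : ℤ) ≤ P.natDegree := by positivity
  nlinarith

instance isIntegrallyClosed_adjoin_of_order_neg {jj : LaurentSeries Ω}
    [hj : Fact (jj.order < 0)] : IsIntegrallyClosed (Algebra.adjoin Ω {jj}) :=
  IsIntegrallyClosed.of_equiv
    (Polynomial.algEquivOfTranscendental Ω jj (transcendental_of_order_neg hj.out)).toRingEquiv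

/-! ### The valuation ring of `Ω(jj)` at infinity -/

/-- `Ω(jj) ∩ {ord ≥ 0}` -/
def infRing (jj : LaurentSeries Ω) : Subring (LaurentSeries Ω) where
  carrier := {x | x ∈ IntermediateField.adjoin Ω {jj} ∧ 0 ≤ x.orderTop}
  zero_mem' := ⟨zero_mem _, by simp⟩
  one_mem' := ⟨one_mem _, by rw [orderTop_one]⟩
  add_mem' := fun ⟨ha, ha'⟩ ⟨hb, hb'⟩ =>
    ⟨add_mem ha hb, le_trans (le_min ha' hb') min_orderTop_le_orderTop_add⟩
  mul_mem' := fun ⟨ha, ha'⟩ ⟨hb, hb'⟩ =>
    ⟨mul_mem ha hb, by rw [orderTop_mul]; exact add_nonneg ha' hb'⟩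
  neg_mem' := fun ⟨ha, ha'⟩ => ⟨neg_mem ha, by rwa [orderTop_neg]⟩

theorem mem_infRing {jj x : LaurentSeries Ω} :
    x ∈ infRing jj ↔ x ∈ IntermediateField.adjoin Ω {jj} ∧ 0 ≤ x.orderTop := Iff.rfl

theorem cst_mem_infRing (jj : LaurentSeries Ω) (c : Ω) : cst c ∈ infRing jj := by
  refine ⟨?_, orderTop_cst_nonneg c⟩
  rw [cst_eq_algebraMap]
  exact IntermediateField.algebraMap_mem _ c

/-- elements integral over a subring of the valuation ring have nonnegative order -/
theorem orderTop_nonneg_of_isIntegral {A : Subring (LaurentSeries Ω)}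
    (hA : ∀ a ∈ A, 0 ≤ (a : LaurentSeries Ω).orderTop) {x : LaurentSeries Ω}
    (hx : IsIntegral A x) : 0 ≤ x.orderTop := by
  by_contra hneg
  rw [not_le] at hneg
  have hx0 : x ≠ 0 := by
    rintro rfl
    simp at hneg
  have hxo : x.order < 0 := by
    rw [← order_eq_orderTop_of_ne_zero hx0] at hneg
    exact_mod_cast hneg
  obtain ⟨P, hPm, hP⟩ := hx
  rw [eval₂_eq_sum_range, Finset.sum_range_succ, hPm.coeff_natDegree, map_one, one_mul] at hP
  set v := addVal ℤ Ω with hv
  have hlow : v (x ^ P.natDegree) <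
      v (∑ i ∈ Finset.range P.natDegree, algebraMap A (LaurentSeries Ω) (P.coeff i) * x ^ i) := by
    apply AddValuation.map_lt_sum
    · rw [hv, addVal_apply]
      exact orderTop_ne_top.2 (pow_ne_zero _ hx0)
    · intro i hi
      rw [Finset.mem_range] at hi
      have hci := hA _ (P.coeff i).2
      change 0 ≤ (algebraMap A (LaurentSeries Ω) (P.coeff i)).orderTop at hci
      rw [AddValuation.map_mul, AddValuation.map_pow, AddValuation.map_pow, hv, addVal_apply,
        addVal_apply]
      have h1 : (P.natDegree • x.orderTop : WithTop ℤ) < i • x.orderTop := by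
        rw [← order_eq_orderTop_of_ne_zero hx0]
        have : (P.natDegree : ℤ) * x.order < (i : ℤ) * x.order := by
          have hi' : (i : ℤ) < P.natDegree := by exact_mod_cast hi
          nlinarith
        have h2 : ∀ k : ℕ, (k • ((x.order : ℤ) : WithTop ℤ)) = (((k : ℤ) * x.order : ℤ) : WithTop ℤ) := by
          intro k
          rw [← WithTop.coe_nsmul, nsmul_eq_mul]
        rw [h2, h2]
        exact_mod_cast this
      calc (P.natDegree • x.orderTop : WithTop ℤ) < i • x.orderTop := h1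
        _ = 0 + i • x.orderTop := (zero_add _).symm
        _ ≤ _ := by gcongr
  have hsum := AddValuation.map_add_eq_of_lt_right v hlow
  rw [hP, AddValuation.map_zero] at hsum
  rw [hv, addVal_apply] at hsum
  exact pow_ne_zero _ hx0 (orderTop_eq_top.1 hsum.symm)


/-! ### The predicate `GoodAlg` -/

/-- `g` is integral over `Ω[jj]` and `jj⁻ⁿ g` is integral over the valuation ring of `Ω(jj)`
at infinity. -/
def GoodAlg (jj : LaurentSeries Ω) (n : ℕ) (g : LaurentSeries Ω) : Prop :=
  IsIntegral (Algebra.adjoin Ω {jj}) g ∧ IsIntegral (infRing jj) (jj⁻¹ ^ n * g)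

theorem isIntegral_mul_add_pow {A : Type*} [CommRing A] [Algebra A (LaurentSeries Ω)] {m : ℕ}
    (hm : 0 < m) (p u x y : LaurentSeries Ω)
    (hx : IsIntegral A (p * (u * x ^ m))) (hy : IsIntegral A (p * (u * y ^ m))) :
    IsIntegral A (p * (u * (x + y) ^ m)) := by
  have key : p * (u * (x + y) ^ m) = ∑ i ∈ Finset.range (m + 1),
      (p * (u * (x ^ i * y ^ (m - i)))) * (m.choose i : LaurentSeries Ω) := by
    rw [add_pow, Finset.mul_sum, Finset.mul_sum]
    refine Finset.sum_congr rfl fun i _ => ?_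
    ring
  rw [key]
  refine IsIntegral.sum _ fun i hi => ?_
  rw [Finset.mem_range, Nat.lt_succ_iff] at hi
  refine IsIntegral.mul ?_ ?_
  · refine IsIntegral.of_pow hm ?_
    have : (p * (u * (x ^ i * y ^ (m - i)))) ^ m =
        (p * (u * x ^ m)) ^ i * (p * (u * y ^ m)) ^ (m - i) := by
      obtain ⟨j, rfl⟩ := Nat.exists_eq_add_of_le hi
      rw [Nat.add_sub_cancel_left]
      ring
    rw [this]
    exact (hx.pow i).mul (hy.pow _)
  · rw [← map_natCast (algebraMap A (LaurentSeries Ω))]
    exact isIntegral_algebraMap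

theorem isIntegral_cst_adjoin (jj : LaurentSeries Ω) (c : Ω) :
    IsIntegral (Algebra.adjoin Ω {jj}) (cst c) := by
  have hmem : cst c ∈ Algebra.adjoin Ω {jj} := by
    rw [cst_eq_algebraMap]
    exact Subalgebra.algebraMap_mem _ c
  have h : cst c = algebraMap (Algebra.adjoin Ω {jj}) (LaurentSeries Ω) ⟨cst c, hmem⟩ := rfl
  rw [h]
  exact isIntegral_algebraMap

theorem isIntegral_cst_infRing (jj : LaurentSeries Ω) (c : Ω) :
    IsIntegral (infRing jj) (cst c) := by
  have h : cst c = algebraMap (infRing jj) (LaurentSeries Ω) ⟨cst c, cst_mem_infRing jj c⟩ := rfl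
  rw [h]
  exact isIntegral_algebraMap

theorem goodAlg_sub (jj : LaurentSeries Ω) {m : ℕ} (hm : 0 < m) (n : ℕ)
    (u h₁ h₂ : LaurentSeries Ω) (c : Ω) (H₁ : GoodAlg jj n (u * h₁ ^ m))
    (H₂ : GoodAlg jj n (u * h₂ ^ m)) : GoodAlg jj n (u * (h₁ - cst c * h₂) ^ m) := by
  have e : h₁ - cst c * h₂ = h₁ + (-(cst c)) * h₂ := by ring
  rw [e]
  constructor
  · have h := isIntegral_mul_add_pow (A := Algebra.adjoin Ω {jj}) hm 1 u h₁ (-(cst c) * h₂)
      (by rw [one_mul]; exact H₁.1)
      (by
        have : (1 : LaurentSeries Ω) * (u * (-(cst c) * h₂) ^ m) =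
            (-(cst c)) ^ m * (u * h₂ ^ m) := by ring
        rw [this]
        exact ((isIntegral_cst_adjoin jj c).neg.pow m).mul H₂.1)
    rwa [one_mul] at h
  · exact isIntegral_mul_add_pow (A := infRing jj) hm (jj⁻¹ ^ n) u h₁ (-(cst c) * h₂) H₁.2
      (by
        have : jj⁻¹ ^ n * (u * (-(cst c) * h₂) ^ m) =
            (-(cst c)) ^ m * (jj⁻¹ ^ n * (u * h₂ ^ m)) := by ring
        rw [this]
        exact ((isIntegral_cst_infRing jj c).neg.pow m).mul H₂.2)

/-- every element integral over `Ω[jj]` becomes integral at infinity after multiplication by a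
power of `jj⁻¹` -/
theorem exists_isIntegral_infRing {jj : LaurentSeries Ω} (hj : jj.order < 0)
    {g : LaurentSeries Ω} (hg : IsIntegral (Algebra.adjoin Ω {jj}) g) :
    ∃ n : ℕ, IsIntegral (infRing jj) (jj⁻¹ ^ n * g) := by
  have hj0 : jj ≠ 0 := by
    rintro rfl
    simp at hj
  obtain ⟨F, hFm, hF⟩ := hg
  set Fm := F.map (algebraMap (Algebra.adjoin Ω {jj}) (LaurentSeries Ω)) with hFmdef
  have hFmm : Fm.Monic := hFm.map _
  have hroot : eval g Fm = 0 := by
    rw [hFmdef, eval_map]
    exact hF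
  let N : ℕ := (Finset.range (Fm.natDegree + 1)).sup fun i => (-(Fm.coeff i).order).toNat
  refine ⟨N, ?_⟩
  set r := jj⁻¹ ^ N with hr
  have hr0 : r ≠ 0 := pow_ne_zero _ (inv_ne_zero hj0)
  set P := scaleRoots Fm r with hPdef
  have hPm : P.Monic := (monic_scaleRoots_iff r).2 hFmm
  have hProot : eval (r * g) P = 0 := by
    have h1 : eval₂ (RingHom.id (LaurentSeries Ω)) g Fm = 0 := by
      rw [eval₂_id]
      exact hroot
    have h2 := scaleRoots_eval₂_eq_zero (RingHom.id (LaurentSeries Ω)) (s := r) h1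
    rw [eval₂_id] at h2
    exact h2
  have hcoef : (↑P.coeffs : Set (LaurentSeries Ω)) ⊆ (infRing jj : Set (LaurentSeries Ω)) := by
    intro c hc
    rw [Finset.mem_coe, mem_coeffs_iff] at hc
    obtain ⟨i, hi, rfl⟩ := hc
    have hi' : i ≤ Fm.natDegree := by
      have := le_natDegree_of_mem_supp i hi
      rwa [hPdef, natDegree_scaleRoots] at this
    rw [hPdef, coeff_scaleRoots]
    rcases eq_or_lt_of_le hi' with rfl | hlt
    · rw [hFmm.coeff_natDegree, Nat.sub_self, pow_zero, one_mul]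
      exact one_mem _
    have hiK : Fm.coeff i ∈ IntermediateField.adjoin Ω {jj} := by
      rw [hFmdef, coeff_map]
      exact IntermediateField.algebra_adjoin_le_adjoin _ _ (F.coeff i).2
    have hrK : r ∈ IntermediateField.adjoin Ω {jj} :=
      pow_mem (inv_mem (IntermediateField.mem_adjoin_simple_self Ω jj)) N
    refine ⟨mul_mem hiK (pow_mem hrK _), ?_⟩
    by_cases hci : Fm.coeff i = 0
    · rw [hci, zero_mul]
      simp
    have hne : Fm.coeff i * r ^ (Fm.natDegree - i) ≠ 0 := mul_ne_zero hci (pow_ne_zero _ hr0)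
    rw [← order_eq_orderTop_of_ne_zero hne, order_mul hci (pow_ne_zero _ hr0), order_pow, hr,
      order_pow, order_inv' hj0]
    have hN : -(Fm.coeff i).order ≤ N := by
      have h1 : (-(Fm.coeff i).order).toNat ≤ N :=
        Finset.le_sup (f := fun i => (-(Fm.coeff i).order).toNat)
          (Finset.mem_range.2 (by omega))
      have h2 := Int.self_le_toNat (-(Fm.coeff i).order)
      have h3 : ((-(Fm.coeff i).order).toNat : ℤ) ≤ N := by exact_mod_cast h1
      linarith
    have h1 : (1 : ℤ) ≤ -jj.order := by omega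
    have h2 : (1 : ℤ) ≤ ((Fm.natDegree - i : ℕ) : ℤ) := by
      have : 1 ≤ Fm.natDegree - i := by omega
      exact_mod_cast this
    have h3 : (0 : ℤ) ≤ N := by positivity
    have h6 : (N : ℤ) ≤ (N : ℤ) * (-jj.order) := by
      nlinarith [mul_nonneg h3 (sub_nonneg.2 h1)]
    have h4 : (N : ℤ) ≤ ((Fm.natDegree - i : ℕ) : ℤ) * ((N : ℤ) * (-jj.order)) := by
      nlinarith [mul_nonneg (sub_nonneg.2 h2) (le_trans h3 h6)]
    have h5 : 0 ≤ (Fm.coeff i).order + ((Fm.natDegree - i : ℕ) : ℤ) * ((N : ℤ) * (-jj.order)) := by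
      linarith
    rw [nsmul_eq_mul, nsmul_eq_mul]
    exact_mod_cast h5
  refine ⟨P.toSubring (infRing jj) hcoef, (monic_toSubring _ _ _).2 hPm, ?_⟩
  rw [eval₂_eq_eval_map]
  have hmap : (P.toSubring (infRing jj) hcoef).map
      (algebraMap (infRing jj) (LaurentSeries Ω)) = P := map_toSubring P (infRing jj) hcoef
  rw [hmap]
  exact hProot

theorem goodAlg_exists {jj : LaurentSeries Ω} (hj : jj.order < 0)
    (M : IntermediateField Ω (LaurentSeries Ω)) (hjM : jj ∈ M)
    (halg : ∀ x ∈ M, IsIntegral (IntermediateField.adjoin Ω {jj}) x) {m : ℕ} (hm : 0 < m)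
    (u : LaurentSeries Ω) (hu : u ∈ M) (_hu0 : u ≠ 0) :
    ∃ n, ∃ h ∈ M, h ≠ 0 ∧ GoodAlg jj n (u * h ^ m) := by
  have : Fact (jj.order < 0) := ⟨hj⟩
  have hA : IsAlgebraic (Algebra.adjoin Ω {jj}) u :=
    (IsFractionRing.isAlgebraic_iff (Algebra.adjoin Ω {jj}) (IntermediateField.adjoin Ω {jj})
      (LaurentSeries Ω)).2 (halg u hu).isAlgebraic
  obtain ⟨b, hb0, hb⟩ := hA.exists_integral_multiple
  have hbu : b • u = (b : LaurentSeries Ω) * u := rfl
  rw [hbu] at hb
  have hbM : (b : LaurentSeries Ω) ∈ M := by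
    have hle : Algebra.adjoin Ω {jj} ≤ M.toSubalgebra :=
      Algebra.adjoin_le (by simpa using hjM)
    exact hle b.2
  have hb0' : (b : LaurentSeries Ω) ≠ 0 := fun h => hb0 (Subtype.ext h)
  have hbint : IsIntegral (Algebra.adjoin Ω {jj}) (b : LaurentSeries Ω) :=
    isIntegral_algebraMap (x := b)
  have hint : IsIntegral (Algebra.adjoin Ω {jj}) (u * (b : LaurentSeries Ω) ^ m) := by
    have : u * (b : LaurentSeries Ω) ^ m =
        ((b : LaurentSeries Ω) * u) * (b : LaurentSeries Ω) ^ (m - 1) := by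
      obtain ⟨k, rfl⟩ := Nat.exists_eq_succ_of_ne_zero hm.ne'
      rw [Nat.succ_sub_one, pow_succ]
      ring
    rw [this]
    exact hb.mul (hbint.pow _)
  obtain ⟨n, hn⟩ := exists_isIntegral_infRing hj hint
  exact ⟨n, b, hbM, hb0', hint, hn⟩

end Fermat.Agent.S29.H21
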