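import Mathlib
import Fermat.Agent.S29.H21.CanonAlg

/-!
# Boundedness of the `q`-order on `GoodAlg`, equivariance, and the algebraic K6 theorem
-/

set_option autoImplicit false

noncomputable section

namespace Fermat.Agent.S29.H21

open HahnSeries ModularCurve Polynomial
open scoped IntermediateField.algebraAdjoinAdjoin

variable {Ω : Type*} [Field Ω]

/-- the coefficients of the minimal polynomial over `Ω(jj)`, scaled by powers of `jj⁻ⁿ`, are
regular at infinity -/
theorem coeff_minpoly_scale_nonneg {jj : LaurentSeries Ω} (hj : jj.order < 0)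
    {x : LaurentSeries Ω} (n : ℕ)
    (hx2 : IsIntegral (infRing jj) (jj⁻¹ ^ n * x)) (i : ℕ) :
    0 ≤ ((((minpoly (IntermediateField.adjoin Ω {jj}) x).coeff i :
        IntermediateField.adjoin Ω {jj}) : LaurentSeries Ω) *
      (jj⁻¹ ^ n) ^ ((minpoly (IntermediateField.adjoin Ω {jj}) x).natDegree - i)).orderTop := by
  have hj0 : jj ≠ 0 := by
    rintro rfl
    simp at hj
  set K := IntermediateField.adjoin Ω {jj} with hK
  let jK : K := ⟨jj, IntermediateField.mem_adjoin_simple_self Ω jj⟩
  have hjK0 : jK ≠ 0 := fun h => hj0 (congrArg Subtype.val h)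
  let rK : K := jK⁻¹ ^ n
  have hrK0 : rK ≠ 0 := pow_ne_zero _ (inv_ne_zero hjK0)
  have hrKcoe : ((rK : K) : LaurentSeries Ω) = jj⁻¹ ^ n := by
    simp [rK, jK]
  set f := minpoly K x with hf
  set t := jj⁻¹ ^ n * x with ht
  set f' := scaleRoots f rK with hf'
  -- `t` is integral over `K`
  obtain ⟨F, hFm, hF⟩ := hx2
  let φ : ↥(infRing jj) →+* ↥K :=
    { toFun := fun a => ⟨a.1, a.2.1⟩
      map_one' := rfl
      map_mul' := fun _ _ => rfl
      map_zero' := rfl
      map_add' := fun _ _ => rfl }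
  have hφ : (algebraMap K (LaurentSeries Ω)).comp φ = algebraMap (infRing jj) (LaurentSeries Ω) :=
    RingHom.ext fun _ => rfl
  have hFroot : aeval t (F.map φ) = 0 := by
    rw [aeval_def, eval₂_map, hφ]
    exact hF
  have htK : IsIntegral K t := ⟨F.map φ, hFm.map φ, by rw [← aeval_def]; exact hFroot⟩
  set ft := minpoly K t with hft
  have hftm : ft.Monic := minpoly.monic htK
  have hdvd2 : ft ∣ F.map φ := minpoly.dvd K t hFroot
  -- `x` is integral over `K`
  have hxt : x = algebraMap K (LaurentSeries Ω) rK⁻¹ * t := by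
    have : algebraMap K (LaurentSeries Ω) rK⁻¹ = (jj⁻¹ ^ n)⁻¹ := by
      rw [map_inv₀]
      congr 1
    rw [this, ht, ← mul_assoc, inv_mul_cancel₀ (pow_ne_zero _ (inv_ne_zero hj0)), one_mul]
  have hx1 : aeval x (scaleRoots ft rK⁻¹) = 0 := by
    rw [hxt]
    exact scaleRoots_aeval_eq_zero (minpoly.aeval K t)
  have hxK : IsIntegral K x :=
    ⟨scaleRoots ft rK⁻¹, (monic_scaleRoots_iff _).2 hftm, by rw [← aeval_def]; exact hx1⟩
  have hfm : f.Monic := minpoly.monic hxK
  have hf'm : f'.Monic := (monic_scaleRoots_iff rK).2 hfm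
  have hf'root : aeval t f' = 0 := by
    have h := scaleRoots_aeval_eq_zero (r := rK) (minpoly.aeval K x)
    have h2 : algebraMap K (LaurentSeries Ω) rK * x = t := by
      rw [ht, ← hrKcoe]
      rfl
    rwa [h2] at h
  have hdvd : ft ∣ f' := minpoly.dvd K t hf'root
  have hdegle : f'.natDegree ≤ ft.natDegree := by
    rw [hf', natDegree_scaleRoots]
    have h2 := minpoly.min K x ((monic_scaleRoots_iff rK⁻¹).2 hftm) hx1
    have h3 := natDegree_le_natDegree h2
    rwa [natDegree_scaleRoots] at h3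
  have heq : f' = ft := eq_of_monic_of_dvd_of_natDegree_le hftm hf'm hdvd hdegle
  -- Gauss lemma in `Ω((q))`
  have hdvd3 : ft.map (algebraMap K (LaurentSeries Ω)) ∣
      F.map (algebraMap (infRing jj) (LaurentSeries Ω)) := by
    rw [← hφ, ← Polynomial.map_map]
    exact Polynomial.map_dvd _ hdvd2
  have hlift := integralClosure.mem_lifts_of_monic_of_dvd_map (LaurentSeries Ω) hFm
    (hftm.map _) hdvd3
  rw [lifts_iff_coeff_lifts] at hlift
  obtain ⟨y, hy⟩ := hlift i
  have hint : IsIntegral (infRing jj) ((ft.coeff i : K) : LaurentSeries Ω) := by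
    rw [coeff_map] at hy
    have h1 : ((ft.coeff i : K) : LaurentSeries Ω) = (y : LaurentSeries Ω) := hy.symm
    rw [h1]
    exact y.2
  have h0 := orderTop_nonneg_of_isIntegral (A := infRing jj) (fun a ha => ha.2) hint
  rw [← heq, hf', coeff_scaleRoots] at h0
  have h1 : (((f.coeff i * rK ^ (f.natDegree - i) : K)) : LaurentSeries Ω) =
      ((f.coeff i : K) : LaurentSeries Ω) * (jj⁻¹ ^ n) ^ (f.natDegree - i) := by
    rw [← hrKcoe]
    rfl
  rwa [h1] at h0


/-- **Boundedness.**  On the good elements of level `n` of a field of bounded degree over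
`Ω(jj)` the `q`-order is bounded above. -/
theorem goodAlg_bdd {jj : LaurentSeries Ω} (hj : jj.order < 0)
    (M : IntermediateField Ω (LaurentSeries Ω)) (d : ℕ)
    (hdeg : ∀ x ∈ M, IsIntegral (IntermediateField.adjoin Ω {jj}) x ∧
      (minpoly (IntermediateField.adjoin Ω {jj}) x).natDegree ≤ d) (n : ℕ) :
    ∃ C : ℤ, ∀ x ∈ M, x ≠ 0 → GoodAlg jj n x → x.order ≤ C := by
  have : Fact (jj.order < 0) := ⟨hj⟩
  have hj0 : jj ≠ 0 := by
    rintro rfl
    simp at hj
  refine ⟨(d : ℤ) * ((n : ℤ) * (-jj.order)), fun x hxM hx0 hgood => ?_⟩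
  obtain ⟨hx1, hx2⟩ := hgood
  by_contra hlt
  rw [not_le] at hlt
  obtain ⟨hxK, hxd⟩ := hdeg x hxM
  set K := IntermediateField.adjoin Ω {jj} with hK
  set f := minpoly K x with hf
  -- the constant term
  have hF1 : f = (minpoly (Algebra.adjoin Ω {jj}) x).map (algebraMap (Algebra.adjoin Ω {jj}) K) :=
    minpoly.isIntegrallyClosed_eq_field_fractions' K hx1
  have hc0ne : f.coeff 0 ≠ 0 := minpoly.coeff_zero_ne_zero hxK hx0
  have hc0ne' : ((f.coeff 0 : K) : LaurentSeries Ω) ≠ 0 := fun h => hc0ne (Subtype.ext h)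
  have hc0 : ((f.coeff 0 : K) : LaurentSeries Ω).order ≤ 0 := by
    have hmem : ((f.coeff 0 : K) : LaurentSeries Ω) ∈ Algebra.adjoin Ω {jj} := by
      rw [hF1, coeff_map]
      exact ((minpoly (Algebra.adjoin Ω {jj}) x).coeff 0).2
    exact order_nonpos_of_mem_adjoin hj hmem hc0ne'
  -- the other coefficients
  have hF2 := fun i => coeff_minpoly_scale_nonneg hj n hx2 i
  -- the equation
  have hsum : ∑ i ∈ Finset.range (f.natDegree + 1),
      ((f.coeff i : K) : LaurentSeries Ω) * x ^ i = 0 := by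
    have h := minpoly.aeval K x
    rw [aeval_def, eval₂_eq_sum_range] at h
    exact h
  rw [Finset.sum_range_succ'] at hsum
  set v := addVal ℤ Ω with hv
  have ha : (1 : ℤ) ≤ -jj.order := by omega
  have hn0 : (0 : ℤ) ≤ (n : ℤ) * (-jj.order) := by positivity
  have hxpos : (d : ℤ) * ((n : ℤ) * (-jj.order)) < x.order := hlt
  have hx1' : (0 : ℤ) < x.order := lt_of_le_of_lt (by positivity) hxpos
  have hpos : (0 : WithTop ℤ) < v (∑ i ∈ Finset.range f.natDegree,
      ((f.coeff (i + 1) : K) : LaurentSeries Ω) * x ^ (i + 1)) := by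
    apply AddValuation.map_lt_sum
    · exact WithTop.zero_ne_top
    · intro i hi
      rw [Finset.mem_range] at hi
      by_cases hci : ((f.coeff (i + 1) : K) : LaurentSeries Ω) = 0
      · rw [hci, zero_mul, AddValuation.map_zero]
        exact WithTop.coe_lt_top (0 : ℤ)
      · have hne : ((f.coeff (i + 1) : K) : LaurentSeries Ω) * x ^ (i + 1) ≠ 0 :=
          mul_ne_zero hci (pow_ne_zero _ hx0)
        rw [hv, addVal_apply, ← order_eq_orderTop_of_ne_zero hne,
          order_mul hci (pow_ne_zero _ hx0), order_pow, nsmul_eq_mul]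
        have h2 := hF2 (i + 1)
        have hr0 : (jj⁻¹ ^ n) ^ (f.natDegree - (i + 1)) ≠ 0 :=
          pow_ne_zero _ (pow_ne_zero _ (inv_ne_zero hj0))
        rw [← order_eq_orderTop_of_ne_zero (mul_ne_zero hci hr0), order_mul hci hr0, order_pow,
          order_pow, order_inv' hj0, nsmul_eq_mul, nsmul_eq_mul] at h2
        have h2' : (0 : ℤ) ≤ ((f.coeff (i + 1) : K) : LaurentSeries Ω).order +
            ((f.natDegree - (i + 1) : ℕ) : ℤ) * ((n : ℤ) * (-jj.order)) := by
          exact_mod_cast h2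
        have hsubc : ((f.natDegree - (i + 1) : ℕ) : ℤ) = (f.natDegree : ℤ) - ((i : ℤ) + 1) := by
          have : i + 1 ≤ f.natDegree := hi
          push_cast [Nat.cast_sub this]
          ring
        rw [hsubc] at h2'
        have hD : (f.natDegree : ℤ) ≤ d := by exact_mod_cast hxd
        have hi0 : (0 : ℤ) ≤ (i : ℤ) := by positivity
        have h3 : (f.natDegree : ℤ) * ((n : ℤ) * (-jj.order)) ≤
            (d : ℤ) * ((n : ℤ) * (-jj.order)) := mul_le_mul_of_nonneg_right hD hn0
        have h4 : x.order ≤ ((i : ℤ) + 1) * x.order := by nlinarith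
        have h5 : (0 : ℤ) ≤ ((i : ℤ) + 1) * ((n : ℤ) * (-jj.order)) := by positivity
        have hfin : (0 : ℤ) < ((f.coeff (i + 1) : K) : LaurentSeries Ω).order +
            ((i + 1 : ℕ) : ℤ) * x.order := by
          push_cast
          nlinarith
        exact_mod_cast hfin
  have hc0eq : ((f.coeff 0 : K) : LaurentSeries Ω) =
      -(∑ i ∈ Finset.range f.natDegree, ((f.coeff (i + 1) : K) : LaurentSeries Ω) * x ^ (i + 1)) := by
    rw [eq_neg_iff_add_eq_zero, add_comm]
    simpa using hsum
  have hv0 : v ((f.coeff 0 : K) : LaurentSeries Ω) =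
      v (∑ i ∈ Finset.range f.natDegree, ((f.coeff (i + 1) : K) : LaurentSeries Ω) * x ^ (i + 1)) := by
    rw [hc0eq, AddValuation.map_neg]
  rw [← hv0, hv, addVal_apply, ← order_eq_orderTop_of_ne_zero hc0ne'] at hpos
  have : (0 : ℤ) < ((f.coeff 0 : K) : LaurentSeries Ω).order := by exact_mod_cast hpos
  omega

/-! ### Equivariance -/

theorem coeffMap_mem_adjoin {jj : LaurentSeries Ω} (s : Ω →+* Ω) (hs : coeffMap s jj = jj)
    {a : LaurentSeries Ω} (ha : a ∈ Algebra.adjoin Ω {jj}) :
    coeffMap s a ∈ Algebra.adjoin Ω {jj} := by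
  induction ha using Algebra.adjoin_induction with
  | mem y hy =>
    rw [Set.mem_singleton_iff.1 hy, hs]
    exact Algebra.self_mem_adjoin_singleton _ _
  | algebraMap c =>
    rw [← cst_eq_algebraMap, coeffMap_cst, cst_eq_algebraMap]
    exact Subalgebra.algebraMap_mem _ _
  | add _ _ _ _ h1 h2 =>
    rw [map_add]
    exact add_mem h1 h2
  | mul _ _ _ _ h1 h2 =>
    rw [map_mul]
    exact mul_mem h1 h2

theorem coeffMap_mem_fieldAdjoin {jj : LaurentSeries Ω} (s : Ω →+* Ω) (hs : coeffMap s jj = jj)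
    {a : LaurentSeries Ω} (ha : a ∈ IntermediateField.adjoin Ω {jj}) :
    coeffMap s a ∈ IntermediateField.adjoin Ω {jj} := by
  have hle : Subfield.closure (Set.range (algebraMap Ω (LaurentSeries Ω)) ∪ {jj}) ≤
      (IntermediateField.adjoin Ω {jj}).toSubfield.comap (coeffMap s) := by
    rw [Subfield.closure_le]
    rintro y (⟨c, rfl⟩ | hy)
    · change coeffMap s (algebraMap Ω (LaurentSeries Ω) c) ∈ IntermediateField.adjoin Ω {jj}
      rw [← cst_eq_algebraMap, coeffMap_cst, cst_eq_algebraMap]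
      exact IntermediateField.algebraMap_mem _ _
    · rw [Set.mem_singleton_iff.1 hy]
      change coeffMap s jj ∈ IntermediateField.adjoin Ω {jj}
      rw [hs]
      exact IntermediateField.mem_adjoin_simple_self Ω jj
  have ha' : a ∈ Subfield.closure (Set.range (algebraMap Ω (LaurentSeries Ω)) ∪ {jj}) := by
    rw [← IntermediateField.adjoin_toSubfield]
    exact ha
  exact hle ha'

theorem goodAlg_coeffMap {jj : LaurentSeries Ω} (s : Ω →+* Ω) (hs : coeffMap s jj = jj)
    (n : ℕ) (x : LaurentSeries Ω) (H : GoodAlg jj n x) : GoodAlg jj n (coeffMap s x) := by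
  constructor
  · let φ : ↥(Algebra.adjoin Ω {jj}) →+* ↥(Algebra.adjoin Ω {jj}) :=
      { toFun := fun a => ⟨coeffMap s a, coeffMap_mem_adjoin s hs a.2⟩
        map_one' := Subtype.ext (map_one _)
        map_mul' := fun a b => Subtype.ext (map_mul _ _ _)
        map_zero' := Subtype.ext (map_zero _)
        map_add' := fun a b => Subtype.ext (map_add _ _ _) }
    exact IsIntegral.map_of_comp_eq φ (coeffMap s) (RingHom.ext fun _ => rfl) H.1
  · have hO : ∀ a ∈ infRing jj, coeffMap s a ∈ infRing jj := fun a ha =>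
      ⟨coeffMap_mem_fieldAdjoin s hs ha.1, by rw [orderTop_coeffMap]; exact ha.2⟩
    let φ : ↥(infRing jj) →+* ↥(infRing jj) :=
      { toFun := fun a => ⟨coeffMap s a, hO a a.2⟩
        map_one' := Subtype.ext (map_one _)
        map_mul' := fun a b => Subtype.ext (map_mul _ _ _)
        map_zero' := Subtype.ext (map_zero _)
        map_add' := fun a b => Subtype.ext (map_add _ _ _) }
    have h := IsIntegral.map_of_comp_eq φ (coeffMap s) (RingHom.ext fun _ => rfl) H.2
    rwa [map_mul, map_pow, map_inv₀, hs] at h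

/-! ### Degree bound from finite generation -/

theorem exists_degree_bound (M : IntermediateField Ω (LaurentSeries Ω)) (jj : LaurentSeries Ω)
    (hgen : ∃ s : Set (LaurentSeries Ω), s.Finite ∧
      (∀ x ∈ s, IsIntegral (Algebra.adjoin Ω {jj}) x) ∧
      M ≤ IntermediateField.adjoin Ω (insert jj s)) :
    ∃ d : ℕ, ∀ x ∈ M, IsIntegral (IntermediateField.adjoin Ω {jj}) x ∧
      (minpoly (IntermediateField.adjoin Ω {jj}) x).natDegree ≤ d := by
  obtain ⟨s, hsfin, hsint, hM⟩ := hgen
  set K := IntermediateField.adjoin Ω {jj} with hK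
  have : Finite s := hsfin.to_subtype
  have hsK : ∀ x ∈ s, IsIntegral K x := fun x hx => (hsint x hx).tower_top
  have : FiniteDimensional K (IntermediateField.adjoin K s) :=
    IntermediateField.finiteDimensional_adjoin hsK
  refine ⟨Module.finrank K (IntermediateField.adjoin K s), fun x hx => ?_⟩
  have hx' : x ∈ IntermediateField.adjoin K s := by
    have h1 := hM hx
    rw [Set.insert_eq, ← IntermediateField.adjoin_adjoin_left] at h1
    exact (IntermediateField.mem_restrictScalars Ω).1 h1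
  let x' : IntermediateField.adjoin K s := ⟨x, hx'⟩
  have hint : IsIntegral K x' := IsIntegral.of_finite K x'
  have hxx : algebraMap (IntermediateField.adjoin K s) (LaurentSeries Ω) x' = x := rfl
  refine ⟨?_, ?_⟩
  · rw [← hxx]
    exact hint.algebraMap
  · have h := minpoly.natDegree_le (A := K) x'
    rw [← minpoly.algebraMap_eq (B' := LaurentSeries Ω)
      (algebraMap (IntermediateField.adjoin K s) (LaurentSeries Ω)).injective x', hxx] at h
    exact h

/-! ### The algebraic K6 theorem -/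

/-- **Canonical representative with finite orbit (algebraic form).**  `M ⊆ Ω((q))` finitely
generated over `Ω(jj)` by elements integral over `Ω[jj]`, `jj` with a pole; `G` acts on the
coefficients preserving `M` and fixing `jj`.  If the conjugates of `u ∈ Mˣ` lie in finitely many
classes modulo `m`-th powers, some `c · u · h ^ m` has finite orbit. -/
theorem exists_finite_orbit_rep (M : IntermediateField Ω (LaurentSeries Ω))
    (jj : LaurentSeries Ω) (hjM : jj ∈ M) (hj : jj.order < 0)
    (hgen : ∃ s : Set (LaurentSeries Ω), s.Finite ∧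
      (∀ x ∈ s, IsIntegral (Algebra.adjoin Ω {jj}) x) ∧
      M ≤ IntermediateField.adjoin Ω (insert jj s))
    {G : Type*} [Group G] (ρ : G →* (Ω ≃+* Ω))
    (hM : ∀ g, ∀ x ∈ M, coeffMap (ρ g : Ω →+* Ω) x ∈ M)
    (hjfix : ∀ g, coeffMap (ρ g : Ω →+* Ω) jj = jj)
    {m : ℕ} (hm : 0 < m) {u : LaurentSeries Ω} (hu : u ∈ M) (hu0 : u ≠ 0)
    (hT : ∃ T : Set (LaurentSeries Ω), T.Finite ∧
      ∀ g, ∃ t ∈ T, ∃ w ∈ M, w ≠ 0 ∧ coeffMap (ρ g : Ω →+* Ω) u = t * w ^ m) :
    ∃ h ∈ M, h ≠ 0 ∧ ∃ c : Ω, c ≠ 0 ∧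
      (Set.range fun g : G => coeffMap (ρ g : Ω →+* Ω) (cst c * (u * h ^ m))).Finite := by
  obtain ⟨d, hd⟩ := exists_degree_bound M jj hgen
  exact exists_canonical_finite_orbit (Good := GoodAlg jj) ρ hm hM (goodAlg_sub jj hm)
    (goodAlg_exists hj M hjM (fun x hx => (hd x hx).1) hm) (goodAlg_bdd hj M d hd)
    (fun g n x => goodAlg_coeffMap _ (hjfix g) n x) hu hu0 hT

end Fermat.Agent.S29.H21
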