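import Mathlib

/-!
# Elements of an algebraically closed field with finite orbit under `Aut(Ω/k)`

`k ⊆ Ω` algebraically closed fields.  An element of `Ω` whose orbit under `Ω ≃ₐ[k] Ω` is
finite lies in `k`.  (A transcendental element `x` is part of a transcendence basis, and the
translations `x ↦ x + c`, `c ∈ k`, of the polynomial ring on that basis extend to
automorphisms of `Ω`.)
-/

set_option autoImplicit false

noncomputable section

namespace Fermat.Agent.S29.H21

open MvPolynomial

section Translate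

variable {k : Type*} [Field k] {B : Type*} [DecidableEq B]

/-- translation of one variable of a polynomial ring -/
def mvTranslateHom (b₀ : B) (c : k) : MvPolynomial B k →ₐ[k] MvPolynomial B k :=
  aeval fun b => X b + C (if b = b₀ then c else 0)

theorem mvTranslateHom_X (b₀ : B) (c : k) (b : B) :
    mvTranslateHom b₀ c (X b) = X b + C (if b = b₀ then c else 0) := by
  simp [mvTranslateHom]

theorem mvTranslateHom_comp (b₀ : B) (c d : k) :
    (mvTranslateHom b₀ c).comp (mvTranslateHom b₀ d) = mvTranslateHom b₀ (d + c) := by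
  apply MvPolynomial.algHom_ext
  intro b
  simp only [AlgHom.comp_apply, mvTranslateHom_X, map_add, MvPolynomial.algHom_C]
  by_cases h : b = b₀
  · simp [h, add_assoc, add_comm (C c : MvPolynomial B k)]
  · simp [h]

theorem mvTranslateHom_zero (b₀ : B) :
    mvTranslateHom b₀ (0 : k) = AlgHom.id k (MvPolynomial B k) := by
  apply MvPolynomial.algHom_ext
  intro b
  simp [mvTranslateHom_X]

/-- translation of one variable, as an automorphism -/
def mvTranslate (b₀ : B) (c : k) : MvPolynomial B k ≃ₐ[k] MvPolynomial B k :=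
  AlgEquiv.ofAlgHom (mvTranslateHom b₀ c) (mvTranslateHom b₀ (-c))
    (by rw [mvTranslateHom_comp]; simp [mvTranslateHom_zero])
    (by rw [mvTranslateHom_comp]; simp [mvTranslateHom_zero])

theorem mvTranslate_X (b₀ : B) (c : k) (b : B) :
    mvTranslate b₀ c (X b) = X b + C (if b = b₀ then c else 0) :=
  mvTranslateHom_X b₀ c b

end Translate

variable {k Ω : Type*} [Field k] [Field Ω] [Algebra k Ω]

/-- For a transcendental `x` of an algebraically closed `Ω` and `c ∈ k` there is a
`k`-automorphism of `Ω` sending `x` to `x + c`. -/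
theorem exists_algEquiv_translate [IsAlgClosed Ω] {x : Ω} (hx : Transcendental k x) (c : k) :
    ∃ σ : Ω ≃ₐ[k] Ω, σ x = x + algebraMap k Ω c := by
  classical
  have hind : AlgebraicIndepOn k id ({x} : Set Ω) := by
    have : AlgebraicIndependent k (fun i : ({x} : Set Ω) => (i : Ω)) := by
      rw [algebraicIndependent_unique_type_iff]
      exact hx
    exact this
  obtain ⟨t, hxt, ht⟩ := exists_isTranscendenceBasis_superset hind
  have hxt' : x ∈ t := hxt rfl
  let b₀ : t := ⟨x, hxt'⟩
  let S := Algebra.adjoin k (Set.range ((↑) : t → Ω))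
  have : IsAlgClosure S Ω := IsAlgClosed.isAlgClosure_of_transcendence_basis _ ht
  let a : MvPolynomial t k ≃ₐ[k] S := ht.1.aevalEquiv
  let e : S ≃ₐ[k] S := (a.symm.trans (mvTranslate b₀ c)).trans a
  let σ₀ : Ω ≃+* Ω := IsAlgClosure.equivOfEquiv Ω Ω e.toRingEquiv
  have hσ₀ : ∀ s : S, σ₀ (algebraMap S Ω s) = algebraMap S Ω (e s) := fun s =>
    IsAlgClosure.equivOfEquiv_algebraMap Ω Ω e.toRingEquiv s
  have hcomm : ∀ r : k, σ₀ (algebraMap k Ω r) = algebraMap k Ω r := by
    intro r
    have h1 : algebraMap k Ω r = algebraMap S Ω (algebraMap k S r) := rfl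
    rw [h1, hσ₀, e.commutes]
  refine ⟨AlgEquiv.ofRingEquiv (f := σ₀) hcomm, ?_⟩
  have hax : (a (X b₀) : Ω) = x := by
    have h0 : (a (X b₀) : Ω) = aeval ((↑) : t → Ω) (X b₀ : MvPolynomial t k) :=
      ht.1.aevalEquiv_apply_coe (X b₀)
    rw [h0, aeval_X]
  have h2 : x = algebraMap S Ω (a (X b₀)) := hax.symm
  have h3 : e (a (X b₀)) = a (X b₀) + algebraMap k S c := by
    change a (mvTranslate b₀ c (a.symm (a (X b₀)))) = _
    rw [AlgEquiv.symm_apply_apply, mvTranslate_X, map_add, if_pos rfl]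
    congr 1
    exact a.commutes c
  change σ₀ x = _
  conv_lhs => rw [h2]
  rw [hσ₀, h3, map_add, ← h2]
  rfl

/-- **Fixed-field lemma.**  `k ⊆ Ω` algebraically closed fields; an element of `Ω` with
finite orbit under `Aut(Ω/k)` lies in `k`. -/
theorem mem_range_of_finite_orbit [IsAlgClosed k] [IsAlgClosed Ω] (x : Ω)
    (hfin : (Set.range fun σ : Ω ≃ₐ[k] Ω => σ x).Finite) : x ∈ (algebraMap k Ω).range := by
  by_contra hx
  have htr : Transcendental k x := by
    intro halg
    apply hx
    have hint : IsIntegral k x := halg.isIntegral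
    have hdeg : (minpoly k x).degree = 1 :=
      IsAlgClosed.degree_eq_one_of_irreducible k (minpoly.irreducible hint)
    exact minpoly.mem_range_of_degree_eq_one k x hdeg
  have hinj : Function.Injective fun c : k => x + algebraMap k Ω c := by
    intro c d hcd
    exact (algebraMap k Ω).injective (add_left_cancel hcd)
  have hsub : (Set.range fun c : k => x + algebraMap k Ω c) ⊆
      Set.range fun σ : Ω ≃ₐ[k] Ω => σ x := by
    rintro _ ⟨c, rfl⟩
    obtain ⟨σ, hσ⟩ := exists_algEquiv_translate htr c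
    exact ⟨σ, hσ⟩
  have hinf : (Set.range fun c : k => x + algebraMap k Ω c).Infinite :=
    Set.infinite_range_of_injective hinj
  exact hinf (hfin.subset hsub)

/-- Subgroup form: an element fixed by a finite-index subgroup of `Aut(Ω/k)` lies in `k`. -/
theorem mem_range_of_fixed_finiteIndex [IsAlgClosed k] [IsAlgClosed Ω] (x : Ω)
    (H : Subgroup (Ω ≃ₐ[k] Ω)) [H.FiniteIndex] (hH : ∀ σ ∈ H, σ x = x) :
    x ∈ (algebraMap k Ω).range := by
  apply mem_range_of_finite_orbit x
  have hfac : (Set.range fun σ : Ω ≃ₐ[k] Ω => σ x) ⊆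
      Set.range fun q : (Ω ≃ₐ[k] Ω) ⧸ H => (Quotient.out q) x := by
    rintro _ ⟨σ, rfl⟩
    refine ⟨(σ : (Ω ≃ₐ[k] Ω) ⧸ H), ?_⟩
    have h1 : (Quotient.out (σ : (Ω ≃ₐ[k] Ω) ⧸ H))⁻¹ * σ ∈ H := by
      rw [← QuotientGroup.eq]
      exact QuotientGroup.out_eq' _
    have h2 := hH _ h1
    change (Quotient.out (σ : (Ω ≃ₐ[k] Ω) ⧸ H)) x = σ x
    have h3 : σ x = (Quotient.out (σ : (Ω ≃ₐ[k] Ω) ⧸ H))
        (((Quotient.out (σ : (Ω ≃ₐ[k] Ω) ⧸ H))⁻¹ * σ) x) := by
      simp [AlgEquiv.mul_apply]
    rw [h3, h2]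
  have : Finite ((Ω ≃ₐ[k] Ω) ⧸ H) := Subgroup.finite_quotient_of_finiteIndex
  exact (Set.finite_range _).subset hfac

end Fermat.Agent.S29.H21
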