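import Mathlib
import Fermat.Agent.S29.H21.CanonBdd
import Fermat.Agent.S29.H21.FixedField

/-!
# Descent route K6: the canonical representative has coefficients in the small field

`k ⊆ Ω` algebraically closed fields, `M ⊆ Ω((q))` finitely generated over `Ω(jj)` by elements
integral over `Ω[jj]`, stable under the coefficientwise action of `Aut(Ω/k)`, which fixes `jj`.
If the conjugates of `u ∈ Mˣ` lie in finitely many classes modulo `m`-th powers of `Mˣ`, then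
`u = c · v · w ^ m` with `c ∈ Ωˣ`, `w ∈ Mˣ` and `v ∈ M` with all coefficients in `k`.
-/

set_option autoImplicit false

noncomputable section

namespace Fermat.Agent.S29.H21

open HahnSeries ModularCurve

variable {k Ω : Type*} [Field k] [Field Ω] [Algebra k Ω]

/-- `Aut(Ω/k)` as a group of ring automorphisms -/
def autToRingAut (k Ω : Type*) [Field k] [Field Ω] [Algebra k Ω] :
    (Ω ≃ₐ[k] Ω) →* (Ω ≃+* Ω) where
  toFun σ := σ.toRingEquiv
  map_one' := rfl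
  map_mul' _ _ := rfl

theorem coeffMap_autToRingAut (σ : Ω ≃ₐ[k] Ω) (x : LaurentSeries Ω) :
    coeffMap ((autToRingAut k Ω σ : Ω ≃+* Ω) : Ω →+* Ω) x = coeffMap (σ : Ω →+* Ω) x :=
  coeffMap_congr (RingHom.ext fun _ => rfl) x

/-- **K6.**  The class of `u` modulo constants and `m`-th powers contains an element all of
whose coefficients lie in `k`. -/
theorem exists_coeff_rep [IsAlgClosed k] [IsAlgClosed Ω]
    (M : IntermediateField Ω (LaurentSeries Ω))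
    (jj : LaurentSeries Ω) (hjM : jj ∈ M) (hj : jj.order < 0)
    (hgen : ∃ s : Set (LaurentSeries Ω), s.Finite ∧
      (∀ x ∈ s, IsIntegral (Algebra.adjoin Ω {jj}) x) ∧
      M ≤ IntermediateField.adjoin Ω (insert jj s))
    (hM : ∀ σ : Ω ≃ₐ[k] Ω, ∀ x ∈ M, coeffMap (σ : Ω →+* Ω) x ∈ M)
    (hjfix : ∀ σ : Ω ≃ₐ[k] Ω, coeffMap (σ : Ω →+* Ω) jj = jj)
    {m : ℕ} (hm : 0 < m) {u : LaurentSeries Ω} (hu : u ∈ M) (hu0 : u ≠ 0)
    (hT : ∃ T : Set (LaurentSeries Ω), T.Finite ∧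
      ∀ σ : Ω ≃ₐ[k] Ω, ∃ t ∈ T, ∃ w ∈ M, w ≠ 0 ∧ coeffMap (σ : Ω →+* Ω) u = t * w ^ m) :
    ∃ h ∈ M, h ≠ 0 ∧ ∃ c : Ω, c ≠ 0 ∧
      ∀ n : ℤ, (cst c * (u * h ^ m)).coeff n ∈ (algebraMap k Ω).range := by
  obtain ⟨h, hh, hh0, c, hc, hfin⟩ := exists_finite_orbit_rep M jj hjM hj hgen
    (autToRingAut k Ω)
    (fun σ x hx => by rw [coeffMap_autToRingAut]; exact hM σ x hx)
    (fun σ => by rw [coeffMap_autToRingAut]; exact hjfix σ) hm hu hu0
    (by
      obtain ⟨T, hT1, hT2⟩ := hT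
      refine ⟨T, hT1, fun σ => ?_⟩
      obtain ⟨t, ht, w, hw, hw0, h⟩ := hT2 σ
      exact ⟨t, ht, w, hw, hw0, by rw [coeffMap_autToRingAut]; exact h⟩)
  refine ⟨h, hh, hh0, c, hc, fun n => ?_⟩
  apply mem_range_of_finite_orbit
  refine (hfin.image (fun y : LaurentSeries Ω => y.coeff n)).subset ?_
  rintro _ ⟨σ, rfl⟩
  refine ⟨coeffMap ((autToRingAut k Ω σ : Ω ≃+* Ω) : Ω →+* Ω) (cst c * (u * h ^ m)),
    ⟨σ, rfl⟩, ?_⟩
  change (coeffMap ((autToRingAut k Ω σ : Ω ≃+* Ω) : Ω →+* Ω) (cst c * (u * h ^ m))).coeff n = _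
  rw [coeffMap_coeff]
  rfl

end Fermat.Agent.S29.H21
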