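/-
S29 (Program K, helper21): `p`-th roots of analytic functions.

* `hasDerivAt_of_pow_eq` : a continuous `n`-th root of a differentiable function is differentiable
  where it does not vanish.
* `exists_analytic_root_ball` : a zero-free analytic function on a ball has an analytic `n`-th root.
* `eqOn_of_pow_eq` : two analytic `n`-th roots of the same function on a connected open set which
  agree at one point where they do not vanish are equal.
-/
import Mathlib

set_option autoImplicit false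

open Set Filter Metric Topology

namespace Fermat.Agent.S29.H21

/-- A function continuous at `z₀`, nonzero there, whose `n`-th power has a derivative at `z₀`,
has a derivative at `z₀`. -/
theorem hasDerivAt_of_pow_eq {f g : ℂ → ℂ} {z₀ g' : ℂ} {n : ℕ} (hn : n ≠ 0)
    (hfc : ContinuousAt f z₀) (hf0 : f z₀ ≠ 0) (hg : HasDerivAt g g' z₀)
    (hfg : ∀ᶠ z in 𝓝 z₀, f z ^ n = g z) :
    HasDerivAt f (g' / ((n : ℂ) * f z₀ ^ (n - 1))) z₀ := by
  set S : ℂ → ℂ := fun z => ∑ i ∈ Finset.range n, f z ^ i * f z₀ ^ (n - 1 - i) with hS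
  have hSz₀ : S z₀ = (n : ℂ) * f z₀ ^ (n - 1) := by
    have h1 : ∀ i ∈ Finset.range n, f z₀ ^ i * f z₀ ^ (n - 1 - i) = f z₀ ^ (n - 1) := by
      intro i hi
      rw [← pow_add]
      congr 1
      have := Finset.mem_range.mp hi
      omega
    simp only [hS]
    rw [Finset.sum_congr rfl h1, Finset.sum_const, Finset.card_range, nsmul_eq_mul]
  have hS0 : S z₀ ≠ 0 := by
    rw [hSz₀]
    exact mul_ne_zero (Nat.cast_ne_zero.mpr hn) (pow_ne_zero _ hf0)
  have hSc : ContinuousAt S z₀ := by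
    simp only [hS]
    fun_prop
  have hkey : ∀ z, S z * (f z - f z₀) = f z ^ n - f z₀ ^ n := fun z =>
    (Commute.all (f z) (f z₀)).geom_sum₂_mul n
  rw [hasDerivAt_iff_tendsto_slope]
  have hgs : Tendsto (slope g z₀) (𝓝[≠] z₀) (𝓝 g') := hasDerivAt_iff_tendsto_slope.mp hg
  have hSt : Tendsto S (𝓝[≠] z₀) (𝓝 (S z₀)) := hSc.tendsto.mono_left nhdsWithin_le_nhds
  have hdiv : Tendsto (fun z => slope g z₀ z / S z) (𝓝[≠] z₀) (𝓝 (g' / S z₀)) := hgs.div hSt hS0
  rw [← hSz₀]
  refine hdiv.congr' ?_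
  have h1 : ∀ᶠ z in 𝓝[≠] z₀, S z ≠ 0 := hSt.eventually_ne hS0
  have h2 : ∀ᶠ z in 𝓝[≠] z₀, f z ^ n = g z := hfg.filter_mono nhdsWithin_le_nhds
  have h3 : f z₀ ^ n = g z₀ := hfg.self_of_nhds
  filter_upwards [h1, h2] with z hz1 hz2
  rw [slope_def_field, slope_def_field, ← hz2, ← h3, ← hkey z]
  field_simp

/-- A zero-free analytic function on a ball has an analytic `n`-th root. -/
theorem exists_analytic_root_ball (c : ℂ) {r : ℝ} (hr : 0 < r) {g : ℂ → ℂ}
    (hg : AnalyticOnNhd ℂ g (ball c r)) (h0 : ∀ z ∈ ball c r, g z ≠ 0) {n : ℕ} (hn : n ≠ 0) :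
    ∃ h : ℂ → ℂ, AnalyticOnNhd ℂ h (ball c r) ∧ ∀ z ∈ ball c r, h z ^ n = g z := by
  have hconv : Convex ℝ (ball c r) := convex_ball c r
  have hne : (ball c r).Nonempty := ⟨c, mem_ball_self hr⟩
  have hsc : IsSimplyConnected (ball c r) := by
    have := hconv.contractibleSpace hne
    exact (inferInstance : SimplyConnectedSpace (ball c r))
  have hgc : ContinuousOn g (ball c r) := hg.continuousOn
  have hU₀ : (0 : ℂ) ∉ g '' ball c r := by
    rintro ⟨z, hz, hz0⟩
    exact h0 z hz hz0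
  obtain ⟨f, hfc, hf⟩ := Complex.exists_continuousOn_pow_eq hsc isOpen_ball hgc hU₀ hn
  refine ⟨f, ?_, fun z _ => hf z⟩
  have hdiff : DifferentiableOn ℂ f (ball c r) := by
    intro z hz
    have hfz : f z ≠ 0 := by
      intro h
      apply h0 z hz
      rw [← hf z, h, zero_pow hn]
    have hcz : ContinuousAt f z := hfc.continuousAt (isOpen_ball.mem_nhds hz)
    have hgd : HasDerivAt g (deriv g z) z := (hg z hz).differentiableAt.hasDerivAt
    exact (hasDerivAt_of_pow_eq hn hcz hfz hgd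
      (Filter.Eventually.of_forall hf)).differentiableAt.differentiableWithinAt
  exact hdiff.analyticOnNhd isOpen_ball

/-- Two analytic `n`-th roots of the same function on a preconnected open set, which agree at a
point where they do not vanish, are equal. -/
theorem eqOn_of_pow_eq {U : Set ℂ} (hUo : IsOpen U) (hUc : IsPreconnected U) {a b : ℂ → ℂ}
    (ha : AnalyticOnNhd ℂ a U) (hb : AnalyticOnNhd ℂ b U) {n : ℕ} (hn : n ≠ 0)
    (hab : ∀ z ∈ U, a z ^ n = b z ^ n) {z₁ : ℂ} (hz₁ : z₁ ∈ U) (h1 : a z₁ = b z₁)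
    (hb1 : b z₁ ≠ 0) : EqOn a b U := by
  refine ha.eqOn_of_preconnected_of_eventuallyEq hb hUc hz₁ ?_
  -- near `z₁`, the quotient `a / b` is a continuous function with values in the `n`-th roots of 1
  have hbc : ContinuousAt b z₁ := (hb z₁ hz₁).continuousAt
  have hac : ContinuousAt a z₁ := (ha z₁ hz₁).continuousAt
  have hbne : ∀ᶠ z in 𝓝 z₁, b z ≠ 0 := hbc.eventually_ne hb1
  have hq : ContinuousAt (fun z => a z / b z) z₁ := hac.div hbc hb1
  have hq1 : a z₁ / b z₁ = 1 := by rw [h1, div_self hb1]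
  -- the finite set of `n`-th roots of unity different from `1`
  have hfin : {w : ℂ | w ^ n = 1}.Finite := by
    have hp : (Polynomial.X ^ n - 1 : Polynomial ℂ) ≠ 0 :=
      Polynomial.X_pow_sub_C_ne_zero (Nat.pos_of_ne_zero hn) 1
    refine ((Polynomial.X ^ n - 1 : Polynomial ℂ).roots.toFinset.finite_toSet).subset ?_
    intro w hw
    simp only [Finset.mem_coe, Multiset.mem_toFinset]
    rw [Polynomial.mem_roots hp]
    simp only [Polynomial.IsRoot.def, Polynomial.eval_sub, Polynomial.eval_pow, Polynomial.eval_X,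
      Polynomial.eval_one]
    have hw' : w ^ n = 1 := hw
    rw [hw', sub_self]
  have hcl : IsClosed ({w : ℂ | w ^ n = 1} \ {1}) := (hfin.subset (fun w hw => hw.1)).isClosed
  have hopen : ({w : ℂ | w ^ n = 1} \ {1})ᶜ ∈ 𝓝 (a z₁ / b z₁) := by
    rw [hq1]
    exact hcl.isOpen_compl.mem_nhds (by simp)
  have hev := hq.eventually hopen
  have hU : ∀ᶠ z in 𝓝 z₁, z ∈ U := hUo.mem_nhds hz₁
  filter_upwards [hev, hbne, hU] with z hz hbz hzU
  have hpow : (a z / b z) ^ n = 1 := by
    rw [div_pow, hab z hzU, div_self (pow_ne_zero n hbz)]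
  have hone : a z / b z = 1 := by
    by_contra hne
    exact hz ⟨hpow, hne⟩
  rwa [div_eq_one_iff_eq hbz] at hone

end Fermat.Agent.S29.H21
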