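/-
S29 (Program K, helper21): `n`-th roots of analytic functions with zeros, on a disc.

`exists_analytic_root_of_closedBall` : if `f` is analytic on a neighbourhood of the closed ball
`closedBall c r` and at every point of it the order of vanishing of `f` is a finite multiple of
`n`, then `f` has an analytic `n`-th root on the open ball `ball c r`.
-/
import Fermat.Agent.S29.H21.RootBall

set_option autoImplicit false

open Set Filter Metric Topology Function

namespace Fermat.Agent.S29.H21

theorem exists_analytic_root_of_closedBall (c : ℂ) {r : ℝ} (hr : 0 < r) {f : ℂ → ℂ}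
    (hf : AnalyticOnNhd ℂ f (closedBall c r)) {n : ℕ} (hn : n ≠ 0)
    (hord : ∀ z ∈ closedBall c r, ∃ k : ℕ, analyticOrderAt f z = ((n * k : ℕ) : ℕ∞)) :
    ∃ h : ℂ → ℂ, AnalyticOnNhd ℂ h (ball c r) ∧ ∀ z ∈ ball c r, h z ^ n = f z := by
  classical
  set U : Set ℂ := closedBall c r with hU
  have hmer : MeromorphicOn f U := fun z hz => (hf z hz).meromorphicAt
  have hmo : ∀ z ∈ U, ∃ k : ℕ, meromorphicOrderAt f z = ((n * k : ℕ) : ℤ) := by
    intro z hz
    obtain ⟨k, hk⟩ := hord z hz
    refine ⟨k, ?_⟩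
    rw [(hf z hz).meromorphicOrderAt_eq, hk]
    rfl
  have h₂f : ∀ u : U, meromorphicOrderAt f u ≠ ⊤ := by
    rintro ⟨u, hu⟩
    obtain ⟨k, hk⟩ := hmo u hu
    rw [hk]
    exact WithTop.coe_ne_top
  have h₃f : (MeromorphicOn.divisor f U).support.Finite :=
    (MeromorphicOn.divisor f U).finiteSupport (isCompact_closedBall c r)
  obtain ⟨g, hg_an, hg_ne, heq⟩ := hmer.extract_zeros_poles h₂f h₃f
  set d : ℂ → ℤ := fun u => MeromorphicOn.divisor f U u with hd
  -- the divisor is a multiple of `n`
  have hdn : ∀ u, ∃ k : ℕ, d u = (n : ℤ) * k := by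
    intro u
    by_cases hu : u ∈ U
    · obtain ⟨k, hk⟩ := hmo u hu
      refine ⟨k, ?_⟩
      simp only [hd]
      rw [MeromorphicOn.divisor_apply hmer hu, hk]
      simp
    · refine ⟨0, ?_⟩
      simp only [hd]
      rw [MeromorphicOn.divisor_def]
      simp [hu]
  choose e he using hdn
  have hdfin : d.support.Finite := h₃f
  have hefin : (fun u => (e u : ℤ)).support.Finite := by
    refine hdfin.subset ?_
    intro u hu
    simp only [mem_support, ne_eq, Nat.cast_eq_zero] at hu ⊢
    intro h0
    apply hu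
    have := he u
    rw [h0] at this
    have h2 : (n : ℤ) * (e u : ℤ) = 0 := this.symm
    rcases mul_eq_zero.mp h2 with h | h
    · exact absurd (by exact_mod_cast h) hn
    · exact_mod_cast h
  -- the two factorised rational functions
  set φ : ℂ → ℂ := ∏ᶠ u, (· - u) ^ d u with hφ
  set ψ : ℂ → ℂ := ∏ᶠ u, (· - u) ^ ((e u : ℕ) : ℤ) with hψ
  have hψφ : ψ ^ n = φ := by
    have hms : (fun u : ℂ => ((· - u) ^ ((e u : ℕ) : ℤ) : ℂ → ℂ)).HasFiniteMulSupport := by
      show (mulSupport fun u : ℂ => ((· - u) ^ ((e u : ℕ) : ℤ) : ℂ → ℂ)).Finite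
      rw [Function.FactorizedRational.mulSupport]
      exact hefin
    rw [hψ, hφ, finprod_pow hms]
    congr 1
    funext u
    rw [he u, ← zpow_natCast, ← zpow_mul, mul_comm]
  have hψ_an : ∀ x, AnalyticAt ℂ ψ x := fun x =>
    Function.FactorizedRational.analyticAt (by positivity)
  have hφ_an : ∀ x, AnalyticAt ℂ φ x := fun x =>
    Function.FactorizedRational.analyticAt (by rw [he x]; positivity)
  -- the root of the zero-free factor
  have hball : ball c r ⊆ U := ball_subset_closedBall
  obtain ⟨γ, hγ_an, hγ⟩ := exists_analytic_root_ball c hr (hg_an.mono hball)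
    (fun z hz => hg_ne ⟨z, hball hz⟩) hn
  refine ⟨ψ * γ, fun z hz => (hψ_an z).mul (hγ_an z hz), ?_⟩
  -- `f = φ * g` on the ball by the identity theorem
  have hfg : EqOn f (φ * g) (ball c r) := by
    refine (hf.mono hball).eqOn_of_preconnected_of_frequently_eq
      (fun z hz => (hφ_an z).mul (hg_an z (hball hz))) (convex_ball c r).isPreconnected
      (mem_ball_self hr) ?_
    have h1 : {z | f z = (φ • g) z} ∈ codiscreteWithin U := heq
    rw [mem_codiscreteWithin_iff_forall_mem_nhdsNE] at h1
    have h2 := h1 c (mem_closedBall_self hr.le)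
    have h3 : U ∈ 𝓝[≠] c := nhdsWithin_le_nhds (closedBall_mem_nhds c hr)
    have h4 : ∀ᶠ z in 𝓝[≠] c, f z = (φ * g) z := by
      filter_upwards [h2, h3] with z hz hzU
      rcases hz with hz | hz
      · exact hz
      · exact absurd hzU hz
    exact h4.frequently
  intro z hz
  rw [hfg hz]
  show (ψ z * γ z) ^ n = φ z * g z
  rw [mul_pow, hγ z hz, ← hψφ]
  rfl

end Fermat.Agent.S29.H21
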