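/-
S29 (Program K, helper21): `n`-th roots of analytic functions on the upper half plane.

`exists_analytic_root_upperHalfPlane` : an analytic function on `{z | 0 < z.im}` all of whose
orders of vanishing are finite multiples of `n` is the `n`-th power of an analytic function.
`exists_mdiff_root` : the same for functions `ℍ → ℂ`.

Proof: exhaust the half plane by the increasing discs `ball ((m+2) i) (m + 2 - 1/(m+2))`, take a
root on each (RootDisc.lean), normalise at a common point and glue (RootBall.lean).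
-/
import Fermat.Agent.S29.H21.RootDisc

set_option autoImplicit false

open Set Filter Metric Topology Function

namespace Fermat.Agent.S29.H21

/-- Centres of the exhausting discs. -/
noncomputable def exCentre (m : ℕ) : ℂ := (((m : ℝ) + 2 : ℝ) : ℂ) * Complex.I

/-- Radii of the exhausting discs. -/
noncomputable def exRadius (m : ℕ) : ℝ := (m : ℝ) + 2 - 1 / ((m : ℝ) + 2)

theorem exRadius_pos (m : ℕ) : 0 < exRadius m := by
  unfold exRadius
  have h1 : (0 : ℝ) ≤ m := Nat.cast_nonneg m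
  have h2 : 1 / ((m : ℝ) + 2) ≤ 1 / 2 := by
    apply one_div_le_one_div_of_le (by norm_num) (by linarith)
  linarith

theorem exCentre_re (m : ℕ) : (exCentre m).re = 0 := by
  simp [exCentre]

theorem exCentre_im (m : ℕ) : (exCentre m).im = (m : ℝ) + 2 := by
  simp [exCentre]

theorem closedBall_subset_upper (m : ℕ) :
    closedBall (exCentre m) (exRadius m) ⊆ {z : ℂ | 0 < z.im} := by
  intro z hz
  rw [mem_closedBall, Complex.dist_eq] at hz
  have h1 : |(z - exCentre m).im| ≤ ‖z - exCentre m‖ := Complex.abs_im_le_norm _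
  rw [Complex.sub_im, exCentre_im] at h1
  have h2 := (abs_le.mp (h1.trans hz)).1
  have h3 : (0 : ℝ) < 1 / ((m : ℝ) + 2) := by positivity
  show 0 < z.im
  unfold exRadius at h2
  linarith

theorem dist_exCentre_succ (m : ℕ) : dist (exCentre m) (exCentre (m + 1)) = 1 := by
  rw [Complex.dist_eq]
  have : exCentre m - exCentre (m + 1) = -Complex.I := by
    simp only [exCentre]
    push_cast
    ring
  rw [this, norm_neg, Complex.norm_I]

theorem exRadius_succ (m : ℕ) : exRadius m + 1 ≤ exRadius (m + 1) := by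
  unfold exRadius
  push_cast
  have h1 : (0 : ℝ) ≤ m := Nat.cast_nonneg m
  have h2 : 1 / ((m : ℝ) + 1 + 2) ≤ 1 / ((m : ℝ) + 2) := by
    apply one_div_le_one_div_of_le (by linarith) (by linarith)
  linarith

theorem ball_subset_succ (m : ℕ) :
    ball (exCentre m) (exRadius m) ⊆ ball (exCentre (m + 1)) (exRadius (m + 1)) := by
  intro z hz
  rw [mem_ball] at hz ⊢
  calc dist z (exCentre (m + 1)) ≤ dist z (exCentre m) + dist (exCentre m) (exCentre (m + 1)) :=
        dist_triangle _ _ _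
    _ = dist z (exCentre m) + 1 := by rw [dist_exCentre_succ]
    _ < exRadius m + 1 := by linarith
    _ ≤ exRadius (m + 1) := exRadius_succ m

theorem ball_subset_of_le {m m' : ℕ} (h : m ≤ m') :
    ball (exCentre m) (exRadius m) ⊆ ball (exCentre m') (exRadius m') := by
  induction m', h using Nat.le_induction with
  | base => exact subset_rfl
  | succ k _ ih => exact ih.trans (ball_subset_succ k)

theorem exists_mem_ball {z : ℂ} (hz : 0 < z.im) : ∃ m : ℕ, z ∈ ball (exCentre m) (exRadius m) := by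
  obtain ⟨m, hm⟩ := exists_nat_ge ((z.re ^ 2 + z.im ^ 2 + 2) / (2 * z.im))
  refine ⟨m, ?_⟩
  rw [mem_ball, Complex.dist_eq]
  have hM : (0 : ℝ) ≤ m := Nat.cast_nonneg m
  have hr := exRadius_pos m
  have hkey : z.re ^ 2 + z.im ^ 2 + 2 ≤ 2 * z.im * ((m : ℝ) + 2) := by
    have h1 : (z.re ^ 2 + z.im ^ 2 + 2) / (2 * z.im) ≤ (m : ℝ) + 2 := by linarith
    rw [div_le_iff₀ (by linarith)] at h1
    linarith
  have hsq : ‖z - exCentre m‖ ^ 2 < exRadius m ^ 2 := by
    rw [Complex.sq_norm, Complex.normSq_apply, Complex.sub_re, Complex.sub_im, exCentre_re,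
      exCentre_im]
    unfold exRadius
    have h2 : (0 : ℝ) < ((m : ℝ) + 2) := by linarith
    have h3 : ((m : ℝ) + 2 - 1 / ((m : ℝ) + 2)) ^ 2
        = ((m : ℝ) + 2) ^ 2 - 2 + (1 / ((m : ℝ) + 2)) ^ 2 := by
      field_simp
      ring
    rw [h3]
    have h4 : (0 : ℝ) < (1 / ((m : ℝ) + 2)) ^ 2 := by positivity
    nlinarith
  exact lt_of_pow_lt_pow_left₀ 2 hr.le hsq

/-- **`n`-th roots on the upper half plane.** -/
theorem exists_analytic_root_upperHalfPlane {f : ℂ → ℂ}
    (hf : AnalyticOnNhd ℂ f {z : ℂ | 0 < z.im}) {n : ℕ} (hn : n ≠ 0)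
    (hord : ∀ z : ℂ, 0 < z.im → ∃ k : ℕ, analyticOrderAt f z = ((n * k : ℕ) : ℕ∞)) :
    ∃ g : ℂ → ℂ, AnalyticOnNhd ℂ g {z : ℂ | 0 < z.im} ∧ ∀ z : ℂ, 0 < z.im → g z ^ n = f z := by
  classical
  -- a root on every disc
  have hroot : ∀ m : ℕ, ∃ h : ℂ → ℂ, AnalyticOnNhd ℂ h (ball (exCentre m) (exRadius m)) ∧
      ∀ z ∈ ball (exCentre m) (exRadius m), h z ^ n = f z := fun m =>
    exists_analytic_root_of_closedBall (exCentre m) (exRadius_pos m)
      (hf.mono (closedBall_subset_upper m)) hn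
      (fun z hz => hord z (closedBall_subset_upper m hz))
  choose h hh_an hh using hroot
  -- a base point
  have hc0 : exCentre 0 ∈ {z : ℂ | 0 < z.im} :=
    closedBall_subset_upper 0 (mem_closedBall_self (exRadius_pos 0).le)
  obtain ⟨z₁, hz₁, hfz₁⟩ : ∃ z₁ ∈ ball (exCentre 0) (exRadius 0), f z₁ ≠ 0 := by
    have han : AnalyticAt ℂ f (exCentre 0) := hf _ hc0
    obtain ⟨k, hk⟩ := hord _ hc0
    have hne : ∀ᶠ z in 𝓝[≠] exCentre 0, f z ≠ 0 := by
      rcases han.eventually_eq_zero_or_eventually_ne_zero with h0 | h0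
      · exfalso
        have : analyticOrderAt f (exCentre 0) = ⊤ := analyticOrderAt_eq_top.mpr h0
        rw [hk] at this
        exact ENat.natCast_ne_top _ this
      · exact h0
    have hb : ball (exCentre 0) (exRadius 0) ∈ 𝓝[≠] exCentre 0 :=
      nhdsWithin_le_nhds (ball_mem_nhds _ (exRadius_pos 0))
    obtain ⟨z₁, hz₁⟩ := (hne.and hb).exists
    exact ⟨z₁, hz₁.2, hz₁.1⟩
  obtain ⟨w, hw⟩ := IsAlgClosed.exists_pow_nat_eq (f z₁) (Nat.pos_of_ne_zero hn)
  have hw0 : w ≠ 0 := by
    rintro rfl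
    rw [zero_pow hn] at hw
    exact hfz₁ hw.symm
  have hz₁m : ∀ m, z₁ ∈ ball (exCentre m) (exRadius m) := fun m =>
    ball_subset_of_le (Nat.zero_le m) hz₁
  have hhz₁ : ∀ m, h m z₁ ≠ 0 := by
    intro m h0
    apply hfz₁
    rw [← hh m z₁ (hz₁m m), h0, zero_pow hn]
  -- normalised roots
  set H : ℕ → ℂ → ℂ := fun m z => w / h m z₁ * h m z with hH
  have hH_an : ∀ m, AnalyticOnNhd ℂ (H m) (ball (exCentre m) (exRadius m)) := fun m z hz =>
    analyticAt_const.mul (hh_an m z hz)
  have hH_pow : ∀ m, ∀ z ∈ ball (exCentre m) (exRadius m), H m z ^ n = f z := by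
    intro m z hz
    simp only [hH]
    rw [mul_pow, div_pow, hw, hh m z₁ (hz₁m m), div_self hfz₁, one_mul, hh m z hz]
  have hH_z₁ : ∀ m, H m z₁ = w := by
    intro m
    simp only [hH]
    rw [div_mul_cancel₀ _ (hhz₁ m)]
  have hH_succ : ∀ m, EqOn (H (m + 1)) (H m) (ball (exCentre m) (exRadius m)) := by
    intro m
    refine eqOn_of_pow_eq isOpen_ball (convex_ball _ _).isPreconnected
      ((hH_an (m + 1)).mono (ball_subset_succ m)) (hH_an m) hn ?_ (hz₁m m) ?_ ?_
    · intro z hz
      rw [hH_pow m z hz, hH_pow (m + 1) z (ball_subset_succ m hz)]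
    · rw [hH_z₁, hH_z₁]
    · rw [hH_z₁]
      exact hw0
  have hH_le : ∀ m m', m ≤ m' → EqOn (H m') (H m) (ball (exCentre m) (exRadius m)) := by
    intro m m' hmm'
    induction m', hmm' using Nat.le_induction with
    | base => exact fun z _ => rfl
    | succ k hk ih =>
      intro z hz
      rw [hH_succ k (ball_subset_of_le hk hz), ih hz]
  -- the glued function
  set idx : ℂ → ℕ := fun z =>
    if hz : ∃ m : ℕ, z ∈ ball (exCentre m) (exRadius m) then Nat.find hz else 0 with hidx
  have hidx_mem : ∀ z : ℂ, 0 < z.im → z ∈ ball (exCentre (idx z)) (exRadius (idx z)) := by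
    intro z hz
    have hex := exists_mem_ball hz
    simp only [hidx, dif_pos hex]
    exact Nat.find_spec hex
  have hidx_le : ∀ (z : ℂ) (m : ℕ), z ∈ ball (exCentre m) (exRadius m) → idx z ≤ m := by
    intro z m hzm
    have hex : ∃ m : ℕ, z ∈ ball (exCentre m) (exRadius m) := ⟨m, hzm⟩
    simp only [hidx, dif_pos hex]
    exact Nat.find_min' hex hzm
  have hmem_upper : ∀ (m : ℕ) (z : ℂ), z ∈ ball (exCentre m) (exRadius m) → 0 < z.im :=
    fun m z hz => closedBall_subset_upper m (ball_subset_closedBall hz)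
  set G : ℂ → ℂ := fun z => H (idx z) z with hG
  have hG_eq : ∀ (m : ℕ), EqOn G (H m) (ball (exCentre m) (exRadius m)) := by
    intro m z hz
    have h1 := hidx_le z m hz
    have h2 := hidx_mem z (hmem_upper m z hz)
    exact (hH_le (idx z) m h1 h2).symm
  refine ⟨G, fun z hz => ?_, fun z hz => ?_⟩
  · have hz' := hidx_mem z hz
    have hev : G =ᶠ[𝓝 z] H (idx z) :=
      Filter.eventuallyEq_of_mem (isOpen_ball.mem_nhds hz') (hG_eq (idx z))
    exact (hH_an (idx z) z hz').congr hev.symm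
  · exact hH_pow (idx z) z (hidx_mem z hz)

open UpperHalfPlane in
open scoped Manifold in
/-- **`n`-th roots on `ℍ`.** A holomorphic function on the upper half plane all of whose orders of
vanishing are finite multiples of `n` is the `n`-th power of a holomorphic function. -/
theorem exists_mdiff_root {f : ℍ → ℂ} (hf : MDiff f) {n : ℕ} (hn : n ≠ 0)
    (hord : ∀ τ : ℍ, ∃ k : ℕ, analyticOrderAt (f ∘ ofComplex) (τ : ℂ) = ((n * k : ℕ) : ℕ∞)) :
    ∃ g : ℍ → ℂ, MDiff g ∧ ∀ τ : ℍ, g τ ^ n = f τ := by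
  have hopen : IsOpen {z : ℂ | 0 < z.im} := isOpen_lt continuous_const Complex.continuous_im
  have hdiff : DifferentiableOn ℂ (f ∘ ofComplex) {z : ℂ | 0 < z.im} :=
    UpperHalfPlane.mdifferentiable_iff.mp hf
  have han : AnalyticOnNhd ℂ (f ∘ ofComplex) {z : ℂ | 0 < z.im} := hdiff.analyticOnNhd hopen
  obtain ⟨G, hG_an, hG⟩ := exists_analytic_root_upperHalfPlane han hn
    (fun z hz => hord ⟨z, hz⟩)
  refine ⟨fun τ => G (τ : ℂ), ?_, fun τ => ?_⟩
  · rw [UpperHalfPlane.mdifferentiable_iff]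
    refine (hG_an.differentiableOn).congr ?_
    intro z hz
    show G ((ofComplex z : ℍ) : ℂ) = G z
    rw [UpperHalfPlane.ofComplex_apply_of_im_pos hz]
  · have h1 := hG (τ : ℂ) τ.im_pos
    rw [h1]
    show f (ofComplex (τ : ℂ)) = f τ
    rw [UpperHalfPlane.ofComplex_apply]

end Fermat.Agent.S29.H21
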